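import Fermat.Agent.S24.CL.PlaceOfVal
import Fermat.Agent.S24.Defs
import Fermat.Agent.S24.B.TExp
import Fermat.Agent.GAL.E.Defs

/-!
# S17, part W, node W9: the cusp `∞` as a `G_ℚ`-fixed place of `FN N = ℚ̄(X₀(N))`

The `q`-adic valuation of `ℚ̄((q))` restricted to `FN N`.  (Also used by part H.)
* `cuspVal_algebraMap`: constants are `HahnSeries.C c`/`single 0 c`; use `LaurentSeries.valuation_le_iff_coeff_lt_eq_zero`
  (for `c` and `c⁻¹`) or `valuation_single_zpow`.
* `exists_cuspVal_lt_one`: `f = (jF N)⁻¹`; `(Jser 1).order = -1` is `Fermat.Agent.S24.B.order_Jser_one`.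
* `mem_cusp_iff`: `LaurentSeries.valuation_le_iff_coeff_lt_eq_zero` with `D = 0`.
* `smul_cusp`: `Place.ext` + `ValuationSubring.mem_pointwise_smul_iff_inv_smul_mem` + `mem_cusp_iff`; the coefficients of
  `σ⁻¹ • f` are `σ⁻¹ (f.coeff k)`.
* `ord_cusp`: `exists_mul_ord_placeOfValuation` gives `cuspVal f = exp (-(m * ord f))`; `m = 1` because
  `cuspVal (jF N) = exp 1`.
-/

set_option autoImplicit false

noncomputable section

namespace Fermat.Agent.S17.W

open ModularCurve AlgebraicCurve Fermat.Agent.S24 Fermat.Agent.GAL.E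
open scoped WithZero

/-- The `q`-adic valuation on `FN N`. -/
def cuspVal (N : ℕ) : Valuation (FN N) ℤᵐ⁰ :=
  ((PowerSeries.idealX Kbar).valuation (LaurentSeries Kbar)).comap
    (algebraMap (FN N) (LaurentSeries Kbar))

theorem cuspVal_le_iff (N : ℕ) (f : FN N) (D : ℤ) :
    cuspVal N f ≤ WithZero.exp (-D) ↔ ∀ n : ℤ, n < D → (f : LaurentSeries Kbar).coeff n = 0 :=
  LaurentSeries.valuation_le_iff_coeff_lt_eq_zero Kbar (D := D) (f := (f : LaurentSeries Kbar))

/-- The `q`-adic valuation is `exp (- order)`. -/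
theorem cuspVal_eq_exp_neg_order (N : ℕ) (f : FN N) (hf : f ≠ 0) :
    cuspVal N f = WithZero.exp (-(f : LaurentSeries Kbar).order) := by
  have hf' : (f : LaurentSeries Kbar) ≠ 0 := fun h => hf (Subtype.ext h)
  have hv : cuspVal N f ≠ 0 := (Valuation.ne_zero_iff _).mpr hf
  have h1 : cuspVal N f ≤ WithZero.exp (-(f : LaurentSeries Kbar).order) :=
    (cuspVal_le_iff N f _).mpr fun n hn => HahnSeries.coeff_eq_zero_of_lt_order hn
  have h2 : ¬ cuspVal N f ≤ WithZero.exp (-((f : LaurentSeries Kbar).order + 1)) := by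
    intro h
    exact hf' (HahnSeries.coeff_order_eq_zero.mp ((cuspVal_le_iff N f _).mp h _ (by omega)))
  rw [← WithZero.exp_log hv] at h1 h2 ⊢
  rw [WithZero.exp_le_exp] at h1 h2
  congr 1
  omega

theorem cuspVal_algebraMap (N : ℕ) (a : Kbar) (ha : a ≠ 0) :
    cuspVal N (algebraMap Kbar (FN N) a) = 1 := by
  have h0 : algebraMap Kbar (FN N) a ≠ 0 := by
    simpa using ha
  rw [cuspVal_eq_exp_neg_order N _ h0]
  have : ((algebraMap Kbar (FN N) a : FN N) : LaurentSeries Kbar) = HahnSeries.single 0 a := by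
    show algebraMap Kbar (LaurentSeries Kbar) a = _
    exact algebraMap_laurentSeries_eq_single Kbar a
  rw [this, HahnSeries.order_single ha]
  simp

theorem exists_cuspVal_lt_one (N : ℕ) : ∃ f : FN N, f ≠ 0 ∧ cuspVal N f < 1 := by
  have hj : ((jF N : FN N) : LaurentSeries Kbar) = Jser 1 := rfl
  have hj0 : jF N ≠ 0 := by
    intro h
    have h1 : (Jser 1).order = 0 := by rw [← hj, h]; simp
    rw [B.order_Jser_one] at h1
    omega
  refine ⟨(jF N)⁻¹, inv_ne_zero hj0, ?_⟩
  rw [map_inv₀, cuspVal_eq_exp_neg_order N _ hj0, hj, B.order_Jser_one, ← WithZero.exp_neg,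
    ← WithZero.exp_zero, WithZero.exp_lt_exp]
  omega

/-- The cusp `∞`. -/
def cusp (N : ℕ) : Place Kbar (FN N) :=
  CL.placeOfValuation (cuspVal N) (cuspVal_algebraMap N) (exists_cuspVal_lt_one N)

theorem mem_cusp_iff (N : ℕ) (f : FN N) :
    f ∈ (cusp N).toValuationSubring ↔ ∀ n : ℤ, n < 0 → (f : LaurentSeries Kbar).coeff n = 0 := by
  rw [← cuspVal_le_iff N f 0]
  show f ∈ (cuspVal N).valuationSubring ↔ _
  rw [Valuation.mem_valuationSubring_iff]
  simp

theorem smul_cusp (N : ℕ) (σ : GQ) :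
    arithmeticGalois (modularFunctionFieldFull N) σ • cusp N = cusp N := by
  apply Place.ext
  ext f
  rw [SemilinearAut.smul_toValuationSubring, ValuationSubring.mem_pointwise_smul_iff_inv_smul_mem,
    mem_cusp_iff, mem_cusp_iff, ← map_inv]
  have key : ∀ n : ℤ, (((arithmeticGalois (modularFunctionFieldFull N) σ⁻¹ • f : FN N)) :
      LaurentSeries Kbar).coeff n = σ⁻¹ ((f : LaurentSeries Kbar).coeff n) := by
    intro n
    rw [coe_arithmeticGalois_smul, coeffMap_coeff]
    rfl
  constructor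
  · intro h n hn
    have := h n hn
    rw [key] at this
    simpa using this
  · intro h n hn
    rw [key, h n hn, map_zero]

theorem ord_cusp (N : ℕ) (f : FN N) (hf : f ≠ 0) :
    (cusp N).ord f = (f : LaurentSeries Kbar).order := by
  obtain ⟨m, hm, h⟩ := CL.exists_mul_ord_placeOfValuation (cuspVal N) (cuspVal_algebraMap N)
    (exists_cuspVal_lt_one N)
  have hj : ((jF N : FN N) : LaurentSeries Kbar) = Jser 1 := rfl
  have hj0 : jF N ≠ 0 := by
    intro h
    have h1 : (Jser 1).order = 0 := by rw [← hj, h]; simp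
    rw [B.order_Jser_one] at h1
    omega
  have key : ∀ g : FN N, g ≠ 0 → (g : LaurentSeries Kbar).order = (m : ℤ) * (cusp N).ord g := by
    intro g hg
    have h1 := h g hg
    rw [cuspVal_eq_exp_neg_order N g hg, WithZero.exp_inj] at h1
    have : (CL.placeOfValuation (cuspVal N) (cuspVal_algebraMap N)
      (exists_cuspVal_lt_one N)).ord g = (cusp N).ord g := rfl
    rw [this] at h1
    omega
  have h1 := key (jF N) hj0
  rw [hj, B.order_Jser_one] at h1
  have hm1 : (m : ℤ) = 1 := by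
    have hdvd : (m : ℤ) ∣ -1 := ⟨_, h1⟩
    have := Int.eq_one_or_neg_one_of_mul_eq_neg_one' h1.symm
    rcases this with h | h <;> omega
  rw [key f hf, hm1, one_mul]

end Fermat.Agent.S17.W

end
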