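import Fermat.Agent.S27.H.Rigidity

/-!
# S17, part W, node W14: a class of the constant field extension with finite `Aut(K'/K)`-orbit is defined over `K`

Generalisation of `Fermat.Agent.S27.H.exists_pic0Map_eq` (`Fermat/Agent/S27/H/Rigidity.lean`, frozen): that proof uses the hypothesis
"`c` is `n`-torsion and the `n`-torsion is finite" ONLY through `hΓc` (the orbit of `c` stays in a finite set).
Copy the proof with `hΓc := Rigidity.finiteIndex_comap_stabilizer φ c s hs hc`.
-/

set_option autoImplicit false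

noncomputable section

namespace Fermat.Agent.S17.W

open AlgebraicCurve Fermat.Agent.S24.FF Fermat.Agent.S27.H IntermediateField
open scoped TensorProduct

variable {K F K' F' : Type*} [Field K] [Field F] [Field K'] [Field F']
  [Algebra K F] [Algebra K K'] [Algebra K' F'] [Algebra F F'] [Algebra K F']
  [IsScalarTower K F F'] [IsScalarTower K K' F']
  [IsAlgClosed K] [CharZero K] [IsAlgClosed K'] [CharZero K'] [IsFF1 K F] [IsFF1 K' F']
  [IsConstExt K F K' F']

theorem exists_pic0Map_eq_of_finite_orbit (hF : ∃ x : F, Transcendental K x)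
    (hR' : RiemannThm K' F') (c : Pic0 K' F') (s : Set (Pic0 K' F')) (hs : s.Finite)
    (hc : ∀ σ : K' ≃ₐ[K] K', conj K F K' F' σ • c ∈ s) :
    ∃ c₀ : Pic0 K F, pic0Map K F K' F' c₀ = c := by
  classical
  set φ := conj K F K' F' with hφ
  -- the stabiliser of `c`
  have hΓc : ((MulAction.stabilizer (SemiAut K' F') c).comap φ).FiniteIndex :=
    Rigidity.finiteIndex_comap_stabilizer φ c s hs hc
  set Γc := (MulAction.stabilizer (SemiAut K' F') c).comap φ with hΓcdef
  obtain ⟨D', rfl⟩ := Pic0.mk_surjective c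
  obtain ⟨v0⟩ := exists_place hF
  set P0 := eps K' F' v0 with hP0
  obtain ⟨m, E, hE0, hEp, huniq⟩ := exists_unique_effective hR' (D' : Divisor K' F') P0
  -- `Γc` fixes `E`
  have hfixE : ∀ σ ∈ Γc, φ σ • E = E := by
    intro σ hσ
    apply huniq _ (SemiAut.smul_nonneg _ hE0)
    have h1 : φ σ • Pic0.mk D' = Pic0.mk D' := hσ
    rw [SemiAut.smul_mk] at h1
    have h2 := QuotientAddGroup.eq.mp h1
    rw [AddSubgroup.mem_addSubgroupOf] at h2
    have h3 : -(φ σ • (D' : Divisor K' F')) + (D' : Divisor K' F') ∈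
        Divisor.principal (K := K') (F := F') := h2
    have h4 := SemiAut.smul_mem_principal (φ σ) hEp
    have h5 : φ σ • (Finsupp.single P0 m : Divisor K' F') = Finsupp.single P0 m := by
      rw [SemiAut.smul_single, hP0, hφ, conj_smul_eps]
    have h6 : φ σ • E - ((D' : Divisor K' F') + Finsupp.single P0 m) =
        φ σ • (E - ((D' : Divisor K' F') + Finsupp.single P0 m)) -
          (-(φ σ • (D' : Divisor K' F')) + (D' : Divisor K' F')) := by
      rw [smul_sub, smul_add, h5]
      abel
    rw [h6]
    exact AddSubgroup.sub_mem _ h4 h3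
  -- the support of `E` consists of rational places
  have hsupp : ∀ w ∈ E.support, ∃ v : Place K F, w = eps K' F' v := by
    intro w hw
    obtain ⟨Γ₁, hΓ₁, hfix⟩ := Rigidity.exists_finiteIndex_fixing φ Γc w
      (E.support : Set (Place K' F')) (Finset.finite_toSet _) (by
        intro σ hσ
        rw [Finset.mem_coe, Finsupp.mem_support_iff, ← hfixE σ hσ, SemiAut.smul_apply_smul]
        exact Finsupp.mem_support_iff.mp hw)
    exact exists_eq_eps_of_fixed hF w Γ₁ hfix
  obtain ⟨E₀, hE₀⟩ := exists_epsDiv_eq E hsupp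
  -- degrees
  have hdegp : Divisor.degree (E - ((D' : Divisor K' F') + Finsupp.single P0 m)) = 0 := by
    obtain ⟨f, -, hf⟩ := hEp
    exact degree_eq_zero_of_forall_ord hf
  have hD'0 : Divisor.degree (D' : Divisor K' F') = 0 := D'.2
  have hdegE : Divisor.degree E = m := by
    rw [map_sub, map_add, hD'0, Divisor.degree_single, deg_eq_one] at hdegp
    simp at hdegp
    linarith
  have hdeg0 : Divisor.degree (E₀ - Finsupp.single v0 m) = 0 := by
    rw [map_sub, ← degree_epsDiv (K' := K') (F' := F') E₀, hE₀, hdegE, Divisor.degree_single,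
      deg_eq_one]
    simp
  refine ⟨Pic0.mk ⟨E₀ - Finsupp.single v0 m, hdeg0⟩, ?_⟩
  have hmap : epsDiv K' F' (E₀ - Finsupp.single v0 m) = E - Finsupp.single P0 m := by
    have h : epsDiv K' F' (Finsupp.single v0 m) = Finsupp.single (eps K' F' v0) m :=
      Finsupp.mapDomain_single
    rw [map_sub, hE₀, h]
  show QuotientAddGroup.map _ _ _ _ (QuotientAddGroup.mk _) = QuotientAddGroup.mk _
  rw [QuotientAddGroup.map_mk, QuotientAddGroup.eq, AddSubgroup.mem_addSubgroupOf]
  show -(epsDiv K' F' (E₀ - Finsupp.single v0 m)) + (D' : Divisor K' F') ∈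
    Divisor.principal (K := K') (F := F')
  rw [hmap]
  have h7 : -(E - Finsupp.single P0 m) + (D' : Divisor K' F') =
      -(E - ((D' : Divisor K' F') + Finsupp.single P0 m)) := by abel
  rw [h7]
  exact AddSubgroup.neg_mem _ hEp

end Fermat.Agent.S17.W

end
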