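import Fermat.Agent.S17.W.DivC
import Fermat.Agent.S17.W.DivRigid
import Fermat.Agent.S27.General
import Fermat.Agent.S24.Export.Ramification

/-!
# S17, part W, node W15: `Pic0 K F` is divisible for `K ⊆ ℂ` algebraically closed; `J₀(N)(ℚ̄)` is divisible, `J₀(N)[n]` is finite

Set-up exactly as in `Fermat.Agent.S27.H.card_torsion_of_embeds` (`Fermat/Agent/S27/H/Main.lean`): `F'` a constant field extension to `ℂ`.
`ι x = n c` in `Pic0 ℂ F'` (W13).  For `σ ∈ Aut(ℂ/K)`: `n (σ c) = σ (ι x) = ι x` (`conj_smul_epsDiv`), so the orbit of `c` lies in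
`c + Pic0[n]`, finite by `card_torsion_complex`.  W14: `c = ι c₀`; `ι (n c₀) = ι x`, `pic0Map_injective`.
For `ℚ̄`: an embedding `ℚ̄ →+* ℂ` exists (`IsAlgClosed.lift`).
-/

set_option autoImplicit false
set_option linter.style.haveILetI false

noncomputable section

namespace Fermat.Agent.S17.W

open AlgebraicCurve ModularCurve Fermat.Agent.S24 Fermat.Agent.S24.FF Fermat.Agent.S27

section

variable {K F K' F' : Type*} [Field K] [Field F] [Field K'] [Field F']
  [Algebra K F] [Algebra K K'] [Algebra K' F'] [Algebra F F'] [Algebra K F']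
  [IsScalarTower K F F'] [IsScalarTower K K' F']
  [IsAlgClosed K] [CharZero K] [IsAlgClosed K'] [CharZero K'] [IsFF1 K F] [IsFF1 K' F']
  [H.IsConstExt K F K' F']

/-- the classes coming from `F` are fixed by the conjugations. -/
theorem conj_smul_pic0Map (σ : K' ≃ₐ[K] K') (x : Pic0 K F) :
    H.conj K F K' F' σ • H.pic0Map K F K' F' x = H.pic0Map K F K' F' x := by
  obtain ⟨D, rfl⟩ := Pic0.mk_surjective x
  rw [Pic0.mk, H.pic0Map, QuotientAddGroup.map_mk]
  refine (H.SemiAut.smul_mk _ _).trans ?_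
  refine congrArg Pic0.mk (Subtype.ext ?_)
  rw [H.SemiAut.coe_degZeroSMulHom]
  exact H.conj_smul_epsDiv σ (D : Divisor K F)

end

theorem exists_nsmul_eq_of_embeds (K F : Type*) [Field K] [Field F] [Algebra K F] [IsAlgClosed K]
    [CharZero K] [IsFF1 K F] (hK : Nonempty (K →+* ℂ)) (hF : ∃ x : F, Transcendental K x)
    (n : ℕ) (hn : 0 < n) (x : Pic0 K F) : ∃ y : Pic0 K F, n • y = x := by
  obtain ⟨φ⟩ := hK
  letI : Algebra K ℂ := φ.toAlgebra
  obtain ⟨F', _, _, _, _, _, _, hce⟩ := H.exists_constExt K F ℂ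
  haveI := hce
  haveI : IsFF1 ℂ F' := H.isFF1_of_isConstExt K F ℂ F' hF
  have hF' : ∃ x : F', Transcendental ℂ x := by
    obtain ⟨x, hx⟩ := hF
    exact ⟨_, H.transcendental_algebraMap (K' := ℂ) (F' := F') hx⟩
  haveI : NonConst ℂ F' := ⟨hF'⟩
  obtain ⟨c, hc⟩ := exists_nsmul_eq_complex F' n hn (H.pic0Map K F ℂ F' x)
  have h1 : Nat.card (Pic0.torsion ℂ F' n) = n ^ (2 * genusFF ℂ F') :=
    card_torsion_complex F' n hn
  have hfin : Finite (Pic0.torsion ℂ F' n) := by
    apply Nat.finite_of_card_ne_zero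
    rw [h1]
    exact (pow_pos hn _).ne'
  obtain ⟨c₀, hc₀⟩ := exists_pic0Map_eq_of_finite_orbit (K := K) (F := F) hF
    (H.riemannThm ℂ F' hF') c
    ((fun t => c + t) '' (Pic0.torsion ℂ F' n : Set (Pic0 ℂ F'))) ((Set.toFinite _).image _)
    (fun σ => by
      refine ⟨H.conj K F ℂ F' σ • c - c, ?_, add_sub_cancel _ _⟩
      rw [SetLike.mem_coe, Pic0.mem_torsion, natCast_zsmul, nsmul_sub, smul_comm, hc,
        conj_smul_pic0Map, sub_self])
  refine ⟨c₀, H.pic0Map_injective (K' := ℂ) (F' := F') ?_⟩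
  rw [map_nsmul, hc₀, hc]

theorem exists_nsmul_eq_JZero (N : ℕ) [NeZero N] (n : ℕ) (hn : 0 < n) (x : JZero N) :
    ∃ y : JZero N, n • y = x := by
  haveI : IsFF1 Kbar (FN N) := Export.isFF1 N
  exact exists_nsmul_eq_of_embeds Kbar (FN N) ⟨iota⟩ ⟨jF N, Formal.transcendental_jF N⟩ n hn x

theorem finite_torsion_JZero (N : ℕ) [NeZero N] (n : ℕ) (hn : 0 < n) :
    {t : JZero N | n • t = 0}.Finite := by
  haveI : IsFF1 Kbar (FN N) := Export.isFF1 N
  haveI : NonConst Kbar (FN N) := ⟨⟨jF N, Formal.transcendental_jF N⟩⟩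
  have h1 : Nat.card (Pic0.torsion Kbar (FN N) n) = n ^ (2 * genusFF Kbar (FN N)) :=
    card_torsion_general Kbar (FN N) n hn
  have hfin : Finite (Pic0.torsion Kbar (FN N) n) := by
    apply Nat.finite_of_card_ne_zero
    rw [h1]
    exact (pow_pos hn _).ne'
  have hset : {t : JZero N | n • t = 0} = (Pic0.torsion Kbar (FN N) n : Set (Pic0 Kbar (FN N))) := by
    ext t
    rw [SetLike.mem_coe, Pic0.mem_torsion, natCast_zsmul]
    rfl
  rw [hset]
  exact Set.toFinite _

end Fermat.Agent.S17.W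

end
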