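/-
S17, part W (weak Mordell-Weil for `m = 2`), architect helper67: common definitions.
-/
import Mathlib
import Fermat.Agent.GAL.E.Defs

set_option autoImplicit false

noncomputable section

namespace Fermat.Agent.S17.W

open ModularCurve AlgebraicCurve Fermat.Agent.S24 Fermat.Agent.GAL.E

/-- the semilinear automorphism of `FN N` attached to `σ ∈ G_ℚ` -/
abbrev gal (N : ℕ) (σ : GQ) : SemilinearAut Kbar (FN N) :=
  arithmeticGalois (modularFunctionFieldFull N) σ

/-- the points of `J₀(N)` rational over the number field `K0` -/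
abbrev JK (N : ℕ) (K0 : IntermediateField ℚ Kbar) : AddSubgroup (JZero N) :=
  FixedPoints.addSubgroup K0.fixingSubgroup (JZero N)

theorem mem_JK {N : ℕ} {K0 : IntermediateField ℚ Kbar} {x : JZero N} :
    x ∈ JK N K0 ↔ ∀ σ ∈ K0.fixingSubgroup, σ • x = x :=
  ⟨fun h σ hσ => h ⟨σ, hσ⟩, fun h σ => h σ.1 σ.2⟩

theorem gal_smul_eq_galF (N : ℕ) (σ : GQ) (f : FN N) : gal N σ • f = galF N σ f := rfl

theorem smul_class_def (N : ℕ) (σ : GQ) (y : JZero N) : σ • y = gal N σ • y := rfl

theorem mem_fixingSubgroup_iff' (L : IntermediateField ℚ Kbar) (σ : GQ) :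
    σ ∈ L.fixingSubgroup ↔ ∀ x ∈ L, σ x = x :=
  IntermediateField.mem_fixingSubgroup_iff L σ

end Fermat.Agent.S17.W

end
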