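import Fermat.Agent.GAL.E.FiniteLevel
import Fermat.Agent.S24.Export.Ramification
import Fermat.Agent.S27.WRR2

/-!
# S17, part W, node W11: places and divisor classes have open stabilisers in `G_ℚ`

* place `v`: `Fermat.Agent.S27.exists_pole_only_at v` gives `f` whose only pole is `v`;
  `Fermat.Agent.GAL.E.exists_finite_level N f` gives a number field `L` such that `G_L` fixes `f`.  For `σ ∈ G_L`,
  `(σ v).ord f = (σ v).ord (σ f) = v.ord f < 0` (`SemilinearAut.ord_smul`), so `σ v = v`.
* class `y = [Y]`: the compositum (`⨆` over `Y.support`, finite) of the fields of the places in the support fixes `Y`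
  (`SemilinearAut.divisor_smul_def`, `Finsupp.mapDomain`), hence `y` (`pic0_smul_mk`); the stabiliser contains the open subgroup
  `L.fixingSubgroup` (`IntermediateField.fixingSubgroup_isOpen`, `Subgroup.isOpen_mono`).
Instances: `Fermat.Agent.S24.Export.isFF1 N`, `NonConst` from `Fermat.Agent.S24.Formal.transcendental_jF N`.
-/

set_option autoImplicit false

noncomputable section

namespace Fermat.Agent.S17.W

open ModularCurve AlgebraicCurve Fermat.Agent.S24 Fermat.Agent.GAL.E

theorem exists_finite_level_place (N : ℕ) [NeZero N] (v : Place Kbar (FN N)) :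
    ∃ L : IntermediateField ℚ Kbar, FiniteDimensional ℚ L ∧
      ∀ σ : GQ, (∀ x ∈ L, σ x = x) → arithmeticGalois (modularFunctionFieldFull N) σ • v = v := by
  have : FF.IsFF1 Kbar (FN N) := Fermat.Agent.S24.Export.isFF1 N
  have : Fermat.Agent.S27.NonConst Kbar (FN N) := ⟨⟨jF N, Formal.transcendental_jF N⟩⟩
  obtain ⟨f, hf, hf'⟩ := Fermat.Agent.S27.exists_pole_only_at v
  obtain ⟨L, hL, h⟩ := exists_finite_level N f
  refine ⟨L, hL, fun σ hσ => ?_⟩
  by_contra hne
  have h1 := hf' _ hne
  have h2 := SemilinearAut.ord_smul (arithmeticGalois (modularFunctionFieldFull N) σ) v f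
  have h3 : arithmeticGalois (L := Kbar) (modularFunctionFieldFull N) σ • f = f := h σ hσ
  rw [h3] at h2
  omega

theorem exists_finite_level_divisor (N : ℕ) [NeZero N] (D : Divisor Kbar (FN N)) :
    ∃ L : IntermediateField ℚ Kbar, FiniteDimensional ℚ L ∧
      ∀ σ : GQ, (∀ x ∈ L, σ x = x) → arithmeticGalois (modularFunctionFieldFull N) σ • D = D := by
  obtain ⟨L, hL, h⟩ := exists_finite_level_of_finite
    (fun (v : D.support) σ =>
      arithmeticGalois (modularFunctionFieldFull N) σ • (v : Place Kbar (FN N)) = v)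
    (fun v => exists_finite_level_place N v)
  refine ⟨L, hL, fun σ hσ => ?_⟩
  have h' := h σ hσ
  rw [SemilinearAut.divisor_smul_def]
  have h2 : Finsupp.mapDomain
      (fun x => arithmeticGalois (L := Kbar) (modularFunctionFieldFull N) σ • x) D =
      Finsupp.mapDomain id D := Finsupp.mapDomain_congr fun v hv => h' ⟨v, hv⟩
  rw [h2, Finsupp.mapDomain_id]

theorem isOpen_stabilizer (N : ℕ) [NeZero N] (y : JZero N) :
    IsOpen ((MulAction.stabilizer GQ y : Subgroup GQ) : Set GQ) := by
  obtain ⟨D, rfl⟩ := Pic0.mk_surjective y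
  obtain ⟨L, hL, h⟩ := exists_finite_level_divisor N (D : Divisor Kbar (FN N))
  have hle : L.fixingSubgroup ≤ MulAction.stabilizer GQ (Pic0.mk D : JZero N) := by
    intro σ hσ
    rw [MulAction.mem_stabilizer_iff]
    show arithmeticGalois (modularFunctionFieldFull N) σ • (Pic0.mk D) = Pic0.mk D
    rw [SemilinearAut.pic0_smul_mk]
    refine congrArg Pic0.mk (Subtype.ext ?_)
    rw [SemilinearAut.coe_degZeroSMulHom]
    exact h σ ((IntermediateField.mem_fixingSubgroup_iff L σ).1 hσ)
  exact Subgroup.isOpen_mono hle (IntermediateField.fixingSubgroup_isOpen L)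

end Fermat.Agent.S17.W

end
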