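import Fermat.Agent.S17.W.Cusp
import Fermat.Agent.S24.Export.Ramification
import Fermat.Agent.S27.H.Effective
import Fermat.Agent.S27.H.PartB

/-!
# S17, part W, node W10: a `G_ℚ`-fixed class is the class of a `G_ℚ`-fixed divisor

`x = [D']`.  `Fermat.Agent.S27.H.exists_unique_effective (riemannThm ..) D' (cusp N)` gives `m`, `E ≥ 0` with
`E ~ D' + m ∞`, unique.  For `σ ∈ G_ℚ`: `σ E ≥ 0` and `σ E ~ σ D' + m ∞ ~ D' + m ∞` (as `σ x = x`, `σ ∞ = ∞`), so `σ E = E`.
TEMPLATE: the step `hfixE` in `Fermat.Agent.S27.H.exists_pic0Map_eq` (`Fermat/Agent/S27/H/Rigidity.lean`), with the Prelude's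
`SemilinearAut` API (`smul_mem_principal`, `smul_single`, `pic0_smul_mk`, `divisor_smul_apply`) instead of `SemiAut`.
Instances: `Fermat.Agent.S24.Export.isFF1 N`, `Fermat.Agent.S24.Formal.transcendental_jF N`.
-/

set_option autoImplicit false

noncomputable section

namespace Fermat.Agent.S17.W

open ModularCurve AlgebraicCurve Fermat.Agent.S24 Fermat.Agent.GAL.E

/-- a semilinear automorphism preserves effectivity -/
theorem semilinearAut_smul_nonneg {K F : Type*} [Field K] [Field F] [Algebra K F]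
    (g : SemilinearAut K F) {E : Divisor K F} (hE : 0 ≤ E) : 0 ≤ g • E := by
  intro w
  rw [SemilinearAut.divisor_smul_apply]
  exact hE _

/-- abstract version: a class fixed by a set of semilinear automorphisms fixing the place `P` is
`[E - m P]` with `E` effective and fixed. -/
theorem exists_fixed_effective_aux {K F : Type*} [Field K] [Field F] [Algebra K F]
    [IsAlgClosed K] [CharZero K] [FF.IsFF1 K F] (hR : S27.H.RiemannThm K F) (P : Place K F)
    (S : Set (SemilinearAut K F)) (hP : ∀ g ∈ S, g • P = P) (x : Pic0 K F)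
    (hx : ∀ g ∈ S, g • x = x) :
    ∃ (m : ℤ) (E : Divisor K F), 0 ≤ E ∧ (∀ g ∈ S, g • E = E) ∧
      ∃ h : E - Finsupp.single P m ∈ Divisor.degZero (K := K) (F := F),
        Pic0.mk ⟨E - Finsupp.single P m, h⟩ = x := by
  classical
  obtain ⟨D', rfl⟩ := Pic0.mk_surjective x
  obtain ⟨m, E, hE0, hEp, huniq⟩ := S27.H.exists_unique_effective hR (D' : Divisor K F) P
  have hfix : ∀ g ∈ S, g • E = E := by
    intro g hg
    apply huniq _ (semilinearAut_smul_nonneg g hE0)
    have h1 : g • Pic0.mk D' = Pic0.mk D' := hx g hg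
    rw [SemilinearAut.pic0_smul_mk] at h1
    have h2 := QuotientAddGroup.eq.mp h1
    rw [AddSubgroup.mem_addSubgroupOf] at h2
    have h3 : -(g • (D' : Divisor K F)) + (D' : Divisor K F) ∈
        Divisor.principal (K := K) (F := F) := h2
    have h4 := SemilinearAut.smul_mem_principal g hEp
    have h5 : g • (Finsupp.single P m : Divisor K F) = Finsupp.single P m := by
      rw [SemilinearAut.smul_single, hP g hg]
    have h6 : g • E - ((D' : Divisor K F) + Finsupp.single P m) =
        g • (E - ((D' : Divisor K F) + Finsupp.single P m)) -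
          (-(g • (D' : Divisor K F)) + (D' : Divisor K F)) := by
      rw [smul_sub, smul_add, h5]
      abel
    rw [h6]
    exact AddSubgroup.sub_mem _ h4 h3
  have hdegp : Divisor.degree (E - ((D' : Divisor K F) + Finsupp.single P m)) = 0 := by
    obtain ⟨f, -, hf⟩ := hEp
    have : E - ((D' : Divisor K F) + Finsupp.single P m) =
        S27.H.Effective.divOf (K := K) f := by
      ext v
      rw [hf v]
      rfl
    rw [this, S27.H.Effective.degree_divOf]
  have hD'0 : Divisor.degree (D' : Divisor K F) = 0 := D'.2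
  have hdeg0 : E - Finsupp.single P m ∈ Divisor.degZero (K := K) (F := F) := by
    rw [Divisor.mem_degZero]
    rw [map_sub, map_add, hD'0] at hdegp
    rw [map_sub]
    linarith
  refine ⟨m, E, hE0, hfix, hdeg0, ?_⟩
  refine QuotientAddGroup.eq.mpr ?_
  rw [AddSubgroup.mem_addSubgroupOf]
  show -(E - Finsupp.single P m) + (D' : Divisor K F) ∈ Divisor.principal (K := K) (F := F)
  have h7 : -(E - Finsupp.single P m) + (D' : Divisor K F) =
      -(E - ((D' : Divisor K F) + Finsupp.single P m)) := by abel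
  rw [h7]
  exact AddSubgroup.neg_mem _ hEp

theorem exists_fixed_effective (N : ℕ) [NeZero N] (x : JZero N) (hx : ∀ σ : GQ, σ • x = x) :
    ∃ (m : ℤ) (E : Divisor Kbar (FN N)), 0 ≤ E ∧
      (∀ σ : GQ, arithmeticGalois (modularFunctionFieldFull N) σ • E = E) ∧
      ∃ h : E - Finsupp.single (cusp N) m ∈ Divisor.degZero (K := Kbar) (F := FN N),
        Pic0.mk ⟨E - Finsupp.single (cusp N) m, h⟩ = x := by
  have : FF.IsFF1 Kbar (FN N) := Export.isFF1 N
  have hR : S27.H.RiemannThm Kbar (FN N) :=
    S27.H.riemannThm Kbar (FN N) ⟨jF N, Formal.transcendental_jF N⟩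
  obtain ⟨m, E, hE0, hfix, h, hmk⟩ := exists_fixed_effective_aux hR (cusp N)
    (Set.range (arithmeticGalois (modularFunctionFieldFull N)))
    (by rintro _ ⟨σ, rfl⟩; exact smul_cusp N σ) x (by rintro _ ⟨σ, rfl⟩; exact hx σ)
  exact ⟨m, E, hE0, fun σ => hfix _ ⟨σ, rfl⟩, h, hmk⟩

theorem exists_fixed_divisor (N : ℕ) [NeZero N] (x : JZero N) (hx : ∀ σ : GQ, σ • x = x) :
    ∃ D : Divisor.degZero (K := Kbar) (F := FN N), Pic0.mk D = x ∧
      ∀ σ : GQ, arithmeticGalois (modularFunctionFieldFull N) σ • (D : Divisor Kbar (FN N)) = D := by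
  obtain ⟨m, E, -, hfix, h, hmk⟩ := exists_fixed_effective N x hx
  refine ⟨⟨E - Finsupp.single (cusp N) m, h⟩, hmk, fun σ => ?_⟩
  show arithmeticGalois (modularFunctionFieldFull N) σ • (E - Finsupp.single (cusp N) m) = _
  rw [smul_sub, hfix σ, SemilinearAut.smul_single, smul_cusp]

end Fermat.Agent.S17.W

end
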