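import Fermat.Agent.GAL.E.Scaling
import Fermat.Agent.GAL.E.GalRed

/-!
# S17, part W, node W12: KL  =>  inertia fixes the `n`-division points of classes of `σ`-fixed divisors

`y = [Y]`, `n Y - D = div g`.  Apply `σ` (which fixes `D`): `n (σ Y - Y) = div (σ g / g)`.
`exists_scaling`: `g = c x / x'` with `x, x' ∈ A((q))` of nonzero reduction.  `exists_gal_of_inertia`: `σ x = incl x₁`,
`σ x' = incl x₁'` with `red x₁ = red x`, `red x₁' = red x'`.  `P := x₁ x'`, `Q := x x₁'` have the same nonzero reduction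
(`LaurentSeries` over the residue FIELD is a domain) and `σ g / g = (σ c / c) P / Q`; constants have `ord = 0`
(`Fermat.Agent.S24.FF.ord_algebraMap`), so `n ∣ ord_v (P / Q)` for all `v`; `KL`: `P / Q = w ^ n`.  Then
`n (σ Y - Y) = n div w`, divisors are torsion free, `σ Y - Y = div w`, `σ y = y`.
Compare `rho_eq_one_of_inertia` in `Fermat/Agent/GAL/E/Main.lean` (the case `D = 0` in the Kummer model).
-/

set_option autoImplicit false

noncomputable section

namespace Fermat.Agent.S17.W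

open ModularCurve AlgebraicCurve Fermat.Agent.S24 Fermat.Agent.GAL Fermat.Agent.GAL.E

/-- `KL`: for `σ` in the inertia group, `σ g / g` is an `n`-th power as soon as its divisor is
divisible by `n`. -/
theorem exists_pow_eq_galF_div (N n : ℕ) (hn : n ≠ 0) (A : ValuationSubring Kbar) (ℓ : ℕ)
    (hℓ : ℓ.Prime) (hA : A.LiesOverPrime ℓ) (hKL : KL N A n) (σ : GQ)
    (hσ : σ ∈ A.inertiaSubgroupIn ℚ) (g : FN N) (hg : g ≠ 0)
    (hk : IsKum N n (galF N σ g / g)) : ∃ w : FN N, galF N σ g / g = w ^ n := by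
  obtain ⟨c, x, y, hx, hy, hc, hx0, hy0, huxy⟩ := exists_scaling A ℓ hℓ hA N g hg
  set X : FN N := ⟨incl A x, hx⟩ with hX
  set Y : FN N := ⟨incl A y, hy⟩ with hY
  have hXne : X ≠ 0 := by
    rintro h
    rw [h, zero_div, mul_zero] at huxy
    exact hg huxy
  have hYne : Y ≠ 0 := by
    rintro h
    rw [h, div_zero, mul_zero] at huxy
    exact hg huxy
  obtain ⟨x', hx'1, hx'2⟩ := exists_gal_of_inertia A σ hσ x
  obtain ⟨y', hy'1, hy'2⟩ := exists_gal_of_inertia A σ hσ y
  have hσX : ((galF N σ X : FN N) : LaurentSeries Kbar) = incl A x' := by rw [coe_galF, hx'1]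
  have hσY : ((galF N σ Y : FN N) : LaurentSeries Kbar) = incl A y' := by rw [coe_galF, hy'1]
  have hP : incl A (x' * y) ∈ modularFunctionFieldBar N := by
    rw [map_mul, ← hσX]
    exact (galF N σ X * Y).2
  have hQ : incl A (x * y') ∈ modularFunctionFieldBar N := by
    rw [map_mul, ← hσY]
    exact (X * galF N σ Y).2
  have hPe : (⟨incl A (x' * y), hP⟩ : FN N) = galF N σ X * Y :=
    Subtype.ext (by
      show incl A (x' * y) = ((galF N σ X : FN N) : LaurentSeries Kbar) * (Y : LaurentSeries Kbar)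
      rw [map_mul, ← hσX])
  have hQe : (⟨incl A (x * y'), hQ⟩ : FN N) = X * galF N σ Y :=
    Subtype.ext (by
      show incl A (x * y') = (X : LaurentSeries Kbar) * ((galF N σ Y : FN N) : LaurentSeries Kbar)
      rw [map_mul, ← hσY])
  have hσc : σ c ≠ 0 := (map_ne_zero _).2 hc
  have hσXne : galF N σ X ≠ 0 := (map_ne_zero_iff _ (galF N σ).injective).2 hXne
  have hσYne : galF N σ Y ≠ 0 := (map_ne_zero_iff _ (galF N σ).injective).2 hYne
  have hc' : algebraMap Kbar (FN N) c ≠ 0 := (map_ne_zero _).2 hc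
  have hσc' : algebraMap Kbar (FN N) (σ c) ≠ 0 := (map_ne_zero _).2 hσc
  have h1 : galF N σ g = algebraMap Kbar (FN N) (σ c) * (galF N σ X / galF N σ Y) := by
    rw [huxy, map_mul, map_div₀, galF_algebraMap]
  -- the shape required by `KL`
  have hmain : galF N σ g / g = algebraMap Kbar (FN N) (σ c / c) *
      ((⟨incl A (x' * y), hP⟩ : FN N) / ⟨incl A (x * y'), hQ⟩) := by
    rw [hPe, hQe, h1, map_div₀]
    conv_lhs => rw [huxy]
    field_simp
  have hd : σ c / c ≠ 0 := div_ne_zero hσc hc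
  have hd' : algebraMap Kbar (FN N) (σ c / c) ≠ 0 := (map_ne_zero _).2 hd
  have hk' : IsKum N n ((⟨incl A (x' * y), hP⟩ : FN N) / ⟨incl A (x * y'), hQ⟩) := by
    have h2 : ((⟨incl A (x' * y), hP⟩ : FN N) / ⟨incl A (x * y'), hQ⟩)
        = (galF N σ g / g) * algebraMap Kbar (FN N) (σ c / c)⁻¹ := by
      rw [hmain, map_inv₀]
      generalize ((⟨incl A (x' * y), hP⟩ : FN N) / ⟨incl A (x * y'), hQ⟩) = t
      rw [mul_comm, ← mul_assoc, inv_mul_cancel₀ hd', one_mul]
    rw [h2]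
    exact IsKum.mul hk (isKum_algebraMap N n _)
  obtain ⟨w, hw⟩ := hKL (x' * y) (x * y') hP hQ (by rw [map_mul, map_mul, hx'2, hy'2])
    (by rw [map_mul, hy'2]; exact mul_ne_zero hx0 hy0) hk'
  obtain ⟨d0, hd0⟩ := IsAlgClosed.exists_pow_nat_eq (σ c / c) (Nat.pos_of_ne_zero hn)
  refine ⟨algebraMap Kbar (FN N) d0 * w, ?_⟩
  rw [hmain, hw, mul_pow, ← map_pow, hd0]

theorem smul_eq_of_inertia (N n : ℕ) (hn : n ≠ 0) (A : ValuationSubring Kbar) (ℓ : ℕ)
    (hℓ : ℓ.Prime) (hA : A.LiesOverPrime ℓ) (hKL : KL N A n) (σ : GQ)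
    (hσ : σ ∈ A.inertiaSubgroupIn ℚ) (D : Divisor.degZero (K := Kbar) (F := FN N))
    (hD : arithmeticGalois (modularFunctionFieldFull N) σ • (D : Divisor Kbar (FN N)) = D)
    (y : JZero N) (hy : n • y = Pic0.mk D) : σ • y = y := by
  obtain ⟨Y, rfl⟩ := Pic0.mk_surjective y
  set G := arithmeticGalois (L := Kbar) (modularFunctionFieldFull N) σ with hG
  -- `n Y - D = div g`
  have hy' : (QuotientAddGroup.mk (n • Y) : JZero N) = QuotientAddGroup.mk D := hy
  rw [QuotientAddGroup.eq_iff_sub_mem, AddSubgroup.mem_addSubgroupOf] at hy'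
  obtain ⟨g, hg, hdiv⟩ := hy'
  have hdiv' : ∀ v : Place Kbar (FN N),
      (n : ℤ) * (Y : Divisor Kbar (FN N)) v - (D : Divisor Kbar (FN N)) v = v.ord g := by
    intro v
    rw [← hdiv v]
    simp
  have hGg : ∀ v : Place Kbar (FN N), v.ord (galF N σ g) = (G⁻¹ • v).ord g := by
    intro v
    have h := SemilinearAut.ord_smul G (G⁻¹ • v) g
    rw [smul_inv_smul] at h
    exact h
  have hσg : galF N σ g ≠ 0 := (map_ne_zero_iff _ (galF N σ).injective).2 hg
  have hDv : ∀ v : Place Kbar (FN N),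
      (D : Divisor Kbar (FN N)) (G⁻¹ • v) = (D : Divisor Kbar (FN N)) v := by
    intro v
    rw [← SemilinearAut.divisor_smul_apply, hD]
  have hord : ∀ v : Place Kbar (FN N), v.ord (galF N σ g / g)
      = (n : ℤ) * ((G • (Y : Divisor Kbar (FN N))) v - (Y : Divisor Kbar (FN N)) v) := by
    intro v
    rw [div_eq_mul_inv, v.ord_mul hσg (inv_ne_zero hg), v.ord_inv, hGg, ← hdiv', ← hdiv', hDv,
      SemilinearAut.divisor_smul_apply]
    ring
  obtain ⟨w, hw⟩ := exists_pow_eq_galF_div N n hn A ℓ hℓ hA hKL σ hσ g hg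
    (fun v => by rw [hord]; exact dvd_mul_right _ _)
  have hw0 : w ≠ 0 := by
    rintro rfl
    rw [zero_pow hn] at hw
    exact div_ne_zero hσg hg hw
  rw [galois_smul_pic0_def, SemilinearAut.pic0_smul_mk]
  show (QuotientAddGroup.mk (SemilinearAut.degZeroSMulHom G Y) : JZero N) = QuotientAddGroup.mk Y
  rw [QuotientAddGroup.eq_iff_sub_mem, AddSubgroup.mem_addSubgroupOf]
  refine ⟨w, hw0, fun v => ?_⟩
  have h1 := hord v
  rw [hw, FF.ord_pow] at h1
  have hn' : (n : ℤ) ≠ 0 := Nat.cast_ne_zero.mpr hn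
  have h2 := mul_left_cancel₀ hn' h1
  rw [h2]
  simp

end Fermat.Agent.S17.W

end
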