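import Fermat.Agent.S17.W.AbstractMW
import Fermat.Agent.S17.W.FixedDiv
import Fermat.Agent.S17.W.OpenStab
import Fermat.Agent.S17.W.Inertia
import Fermat.Agent.S17.W.Div

/-!
# S17, part W: the weak Mordell-Weil theorem for `J₀(N)(ℚ)` (from the key lemma KL of cluster GAL)

`abstract_weakMW` with `m = 2 N`:  `hdiv`, `hfin` = W15, `hopen` = W11, `hunr` = W10 (`2 y = [D]`, `D` fixed) + W12 + KL.
-/

set_option autoImplicit false

namespace Fermat.Agent.S17.W

open ModularCurve AlgebraicCurve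

theorem weakMW (hKL : Fermat.Agent.GAL.KLStatement) (N : ℕ) [NeZero N] :
    (nsmulAddMonoidHom (α := ↥(FixedPoints.addSubgroup
      ((AlgebraicClosure ℚ) ≃ₐ[ℚ] (AlgebraicClosure ℚ)) (JZero N))) 2).range.FiniteIndex := by
  refine abstract_weakMW (J := JZero N) (2 * N) (mul_ne_zero two_ne_zero (NeZero.ne N))
    (fun x => exists_nsmul_eq_JZero N 2 two_pos x) (finite_torsion_JZero N 2 two_pos)
    (isOpen_stabilizer N) ?_
  intro y hy ℓ hℓ hℓm A hA σ hσ
  obtain ⟨D, hD, hDfix⟩ := exists_fixed_divisor N (2 • y) hy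
  have : Fact ℓ.Prime := ⟨hℓ⟩
  exact smul_eq_of_inertia N 2 two_ne_zero A ℓ hℓ hA
    (hKL N ℓ (fun h => hℓm (h.mul_left 2)) A hA 2 (fun h => hℓm (h.mul_right N)))
    σ hσ D (hDfix σ) y hD.symm

end Fermat.Agent.S17.W
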