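import Mathlib

/-!
# S17, part W (weak Mordell-Weil), node W1: the cohomological finiteness argument

`G` acts on the abelian group `J`.  If `J` is `n`-divisible, `J[n]` is finite and ONE subgroup `H`
of finite index fixes every `y` with `n y ∈ J^G`, then `J^G / n J^G` is finite:
`x = n y ↦ (σ H ↦ σ y - y) ∈ Maps(G/H, J[n])` is well defined up to the choice of `y` and two
classes with the same function differ by `n (y - y')` with `y - y' ∈ J^G`.

Architect of part W: helper137.
-/

set_option autoImplicit false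

namespace Fermat.Agent.S17.W

theorem finiteIndex_range_nsmul_of_uniform {G J : Type*} [Group G] [AddCommGroup J]
    [DistribMulAction G J] (n : ℕ)
    (hdiv : ∀ x : J, ∃ y : J, n • y = x)
    (hfin : {t : J | n • t = 0}.Finite)
    (H : Subgroup G) [H.FiniteIndex]
    (hH : ∀ y : J, (∀ σ : G, σ • (n • y) = n • y) → ∀ σ ∈ H, σ • y = y) :
    (nsmulAddMonoidHom (α := ↥(FixedPoints.addSubgroup G J)) n).range.FiniteIndex := by
  classical
  choose y hy using hdiv
  have hfix : ∀ (x : ↥(FixedPoints.addSubgroup G J)) (σ : G),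
      σ • (n • y (x : J)) = n • y (x : J) := by
    intro x σ
    rw [hy]
    exact x.2 σ
  have htors : ∀ (x : ↥(FixedPoints.addSubgroup G J)) (σ : G),
      n • (σ • y (x : J) - y (x : J)) = 0 := by
    intro x σ
    rw [smul_sub, smul_comm n σ, hfix x σ, sub_self]
  have : Finite ↥{t : J | n • t = 0} := hfin.to_subtype
  have : Finite (G ⧸ H) := Subgroup.finite_quotient_of_finiteIndex
  -- the cocycle attached to `x`
  let Φ : ↥(FixedPoints.addSubgroup G J) → (G ⧸ H → ↥{t : J | n • t = 0}) :=
    fun x q => ⟨(Quotient.out q : G) • y (x : J) - y (x : J), htors x _⟩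
  have hΦ : ∀ (x : ↥(FixedPoints.addSubgroup G J)) (σ : G),
      σ • y (x : J) - y (x : J) = (Φ x (σ : G ⧸ H) : J) := by
    intro x σ
    have h1 : ((Quotient.out (σ : G ⧸ H) : G))⁻¹ * σ ∈ H := by
      rw [← QuotientGroup.eq]
      exact QuotientGroup.out_eq' _
    have h2 := hH (y (x : J)) (hfix x) _ h1
    have h3 : σ • y (x : J) = (Quotient.out (σ : G ⧸ H) : G) • y (x : J) := by
      conv_rhs => rw [← h2, smul_smul, mul_inv_cancel_left]
    simp only [Φ]
    rw [h3]
  have hker : ∀ x x' : ↥(FixedPoints.addSubgroup G J), Φ x = Φ x' →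
      x - x' ∈ (nsmulAddMonoidHom (α := ↥(FixedPoints.addSubgroup G J)) n).range := by
    intro x x' hxx'
    have hmem : y (x : J) - y (x' : J) ∈ FixedPoints.addSubgroup G J := by
      intro σ
      have h1 := hΦ x σ
      have h2 := hΦ x' σ
      rw [hxx'] at h1
      have h3 : σ • y (x : J) - y (x : J) = σ • y (x' : J) - y (x' : J) := by rw [h1, h2]
      rw [smul_sub]
      have h4 : σ • y (x : J) - σ • y (x' : J) - (y (x : J) - y (x' : J))
          = (σ • y (x : J) - y (x : J)) - (σ • y (x' : J) - y (x' : J)) := by abel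
      rw [← sub_eq_zero, h4, h3, sub_self]
    refine ⟨⟨y (x : J) - y (x' : J), hmem⟩, ?_⟩
    apply Subtype.ext
    simp [smul_sub, hy]
  have hinj : Function.Injective
      (fun q : ↥(FixedPoints.addSubgroup G J) ⧸
        (nsmulAddMonoidHom (α := ↥(FixedPoints.addSubgroup G J)) n).range => Φ (Quotient.out q)) := by
    intro q q' hqq'
    have h1 := hker _ _ hqq'
    rw [← QuotientAddGroup.out_eq' q, ← QuotientAddGroup.out_eq' q', QuotientAddGroup.eq]
    have h2 := AddSubgroup.neg_mem _ h1
    rwa [neg_sub, sub_eq_neg_add] at h2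
  have : Finite (↥(FixedPoints.addSubgroup G J) ⧸
      (nsmulAddMonoidHom (α := ↥(FixedPoints.addSubgroup G J)) n).range) :=
    Finite.of_injective _ hinj
  exact AddSubgroup.finiteIndex_of_finite_quotient

end Fermat.Agent.S17.W
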