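import Mathlib

/-!
# S17, part W, node W2: a nonzero element of order two is avoided by a subgroup "of index two"

Make the `2`-torsion of `J` a `ZMod 2`-vector space, take a linear form `f` with `f t₀ ≠ 0`
(`Module.forall_dual_apply_eq_zero_iff` or a basis argument) and let `T'` be (the image in `J` of) its kernel.
-/

set_option autoImplicit false

namespace Fermat.Agent.S17.W

theorem exists_addSubgroup_avoiding {J : Type*} [AddCommGroup J] (t₀ : J) (h₀ : 2 • t₀ = 0)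
    (ht₀ : t₀ ≠ 0) :
    ∃ T' : AddSubgroup J, t₀ ∉ T' ∧
      ∀ s s' : J, 2 • s = 0 → 2 • s' = 0 → s ∉ T' → s' ∉ T' → s + s' ∈ T' := by
  classical
  let T2 : AddSubgroup J := (nsmulAddMonoidHom (α := J) 2).ker
  have hmem : ∀ s : J, s ∈ T2 ↔ 2 • s = 0 := fun s => by
    simp [T2, AddMonoidHom.mem_ker]
  let _ : Module (ZMod 2) T2 := AddCommGroup.zmodModule (n := 2) (by
    intro x
    apply Subtype.ext
    simpa using (hmem x.1).1 x.2)
  have hne : (⟨t₀, (hmem t₀).2 h₀⟩ : T2) ≠ 0 := by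
    intro h
    exact ht₀ (congrArg Subtype.val h)
  obtain ⟨f, hf⟩ : ∃ f : Module.Dual (ZMod 2) T2, f ⟨t₀, (hmem t₀).2 h₀⟩ ≠ 0 := by
    by_contra hcon
    push Not at hcon
    exact hne ((Module.forall_dual_apply_eq_zero_iff (ZMod 2) _).1 hcon)
  have hone : ∀ a : ZMod 2, a ≠ 0 → a = 1 := by decide
  have hmemT : ∀ (s : J) (hs : 2 • s = 0),
      s ∈ (f.toAddMonoidHom.ker).map T2.subtype ↔ f ⟨s, (hmem s).2 hs⟩ = 0 := by
    intro s hs
    constructor
    · rintro ⟨x, hx, rfl⟩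
      exact hx
    · intro h
      exact ⟨⟨s, (hmem s).2 hs⟩, h, rfl⟩
  refine ⟨(f.toAddMonoidHom.ker).map T2.subtype, ?_, ?_⟩
  · rw [hmemT t₀ h₀]
    exact hf
  · intro s s' hs hs' h1 h2
    rw [hmemT s hs] at h1
    rw [hmemT s' hs'] at h2
    have hss' : 2 • (s + s') = 0 := by rw [smul_add, hs, hs', add_zero]
    rw [hmemT (s + s') hss']
    have h3 : (⟨s + s', (hmem _).2 hss'⟩ : T2) = ⟨s, (hmem s).2 hs⟩ + ⟨s', (hmem s').2 hs'⟩ := rfl
    rw [h3, map_add, hone _ h1, hone _ h2]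
    decide

end Fermat.Agent.S17.W
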