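import Mathlib

/-!
# S17, part W, node W4b: elements whose ideal is a square, modulo units times squares

Pigeonhole on the (finite) class group.  For `a ≠ 0` with `(a) = I ^ 2` let `κ(a)` be the class of `I`
(choose `I`; use e.g. `ClassGroup.mk` on `FractionalIdeal` units, or clear denominators and use `ClassGroup.mk0`).
If `κ(a) = κ(a')`, `(a) = I ^ 2`, `(a') = I' ^ 2`, then `I = (c) I'` for some `c ∈ Kˣ`, so `(a) = (c ^ 2 a')`
and `a = u c ^ 2 a'` with `u` a unit of `𝓞 K`.  For every class which occurs choose one `a'`.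
-/

set_option autoImplicit false

namespace Fermat.Agent.S17.W

open NumberField

/-- `a'` is nonzero and its ideal is the square of an ideal of class `κ`. -/
def IsSquareOfClass (K : Type) [Field K] [NumberField K] (κ : ClassGroup (𝓞 K)) (a : K) : Prop :=
  a ≠ 0 ∧ ∃ I : (FractionalIdeal (nonZeroDivisors (𝓞 K)) K)ˣ,
    FractionalIdeal.spanSingleton (nonZeroDivisors (𝓞 K)) a =
      (I : FractionalIdeal (nonZeroDivisors (𝓞 K)) K) ^ 2 ∧ ClassGroup.mk K I = κ

theorem exists_finset_ideal_square (K : Type) [Field K] [NumberField K] :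
    ∃ C : Finset K, (∀ c ∈ C, c ≠ 0) ∧ ∀ a : K, a ≠ 0 →
      (∃ I : FractionalIdeal (nonZeroDivisors (𝓞 K)) K,
        FractionalIdeal.spanSingleton (nonZeroDivisors (𝓞 K)) a = I ^ 2) →
      ∃ c ∈ C, ∃ (u : (𝓞 K)ˣ) (b : K), b ≠ 0 ∧ a = c * ((u : 𝓞 K) : K) * b ^ 2 := by
  classical
  let rep : ClassGroup (𝓞 K) → K := fun κ =>
    if h : ∃ a, IsSquareOfClass K κ a then h.choose else 1
  refine ⟨Finset.univ.image rep, ?_, ?_⟩
  · intro c hc
    obtain ⟨κ, -, rfl⟩ := Finset.mem_image.mp hc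
    by_cases h : ∃ a, IsSquareOfClass K κ a
    · simp only [rep, dif_pos h]
      exact h.choose_spec.1
    · simp only [rep, dif_neg h]
      exact one_ne_zero
  · rintro a ha ⟨I, hI⟩
    have hI0 : I ≠ 0 := by
      rintro rfl
      rw [zero_pow two_ne_zero, FractionalIdeal.spanSingleton_eq_zero_iff] at hI
      exact ha hI
    set Iu : (FractionalIdeal (nonZeroDivisors (𝓞 K)) K)ˣ := Units.mk0 I hI0 with hIu
    have h : ∃ a, IsSquareOfClass K (ClassGroup.mk K Iu) a := ⟨a, ha, Iu, hI, rfl⟩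
    refine ⟨rep (ClassGroup.mk K Iu), Finset.mem_image_of_mem _ (Finset.mem_univ _), ?_⟩
    have hrep : rep (ClassGroup.mk K Iu) = h.choose := by simp only [rep, dif_pos h]
    obtain ⟨hc0, I', hI', hcl⟩ := h.choose_spec
    rw [hrep]
    set c := h.choose
    -- `Iu * I'⁻¹` is principal
    have hone : ClassGroup.mk K (Iu * I'⁻¹) = 1 := by
      rw [map_mul, map_inv, hcl, mul_inv_cancel]
    rw [ClassGroup.mk_eq_one_iff, FractionalIdeal.isPrincipal_iff] at hone
    obtain ⟨b, hb⟩ := hone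
    have hb0 : b ≠ 0 := by
      rintro rfl
      rw [FractionalIdeal.spanSingleton_zero] at hb
      exact (Iu * I'⁻¹).ne_zero hb
    have hII' : (Iu : FractionalIdeal (nonZeroDivisors (𝓞 K)) K) =
        FractionalIdeal.spanSingleton (nonZeroDivisors (𝓞 K)) b * I' := by
      rw [← hb, Units.val_mul, mul_assoc, ← Units.val_mul, inv_mul_cancel, Units.val_one, mul_one]
    have hspan : FractionalIdeal.spanSingleton (nonZeroDivisors (𝓞 K)) a =
        FractionalIdeal.spanSingleton (nonZeroDivisors (𝓞 K)) (b ^ 2 * c) := by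
      have : I = (Iu : FractionalIdeal (nonZeroDivisors (𝓞 K)) K) := rfl
      rw [hI, this, hII', mul_pow, ← hI', FractionalIdeal.spanSingleton_pow,
        FractionalIdeal.spanSingleton_mul_spanSingleton]
    obtain ⟨z, hz⟩ := FractionalIdeal.spanSingleton_eq_spanSingleton.mp hspan.symm
    refine ⟨z, b, hb0, ?_⟩
    rw [← hz, Units.smul_def, Algebra.smul_def]
    change (algebraMap (𝓞 K) K (z : 𝓞 K)) * (b ^ 2 * c) = c * algebraMap (𝓞 K) K (z : 𝓞 K) * b ^ 2
    ring

end Fermat.Agent.S17.W
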