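import Mathlib

/-!
# S17, part W, node W4c: removing the primes dividing `m`

The set `S` of `v : HeightOneSpectrum (𝓞 K)` with `(m : 𝓞 K) ∈ v.asIdeal` is finite (`m ≠ 0`; prime factors of
the nonzero ideal `(m)`, e.g. `Ideal.finite_factors` / `HeightOneSpectrum` API).
Pigeonhole on the parity vector `S → Bool`, `v ↦ "v.valuation K a is a square in ℤᵐ⁰"`:
if `a`, `a'` have the same parity vector and square valuations outside `S`, then all the valuations of `a / a'`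
are squares.  For every parity vector which occurs choose one `a'`.
(`ℤᵐ⁰ = WithZero (Multiplicative ℤ)`; for `x, y ≠ 0` both non-squares, `x / y` is a square: parity of `WithZero.log`.)
-/

set_option autoImplicit false

namespace Fermat.Agent.S17.W

open NumberField IsDedekindDomain WithZero

namespace SelmerParity

theorem exp_isSq_iff (n : ℤ) : (∃ γ : ℤᵐ⁰, exp n = γ ^ 2) ↔ Even n := by
  constructor
  · rintro ⟨γ, hγ⟩
    have hγ0 : γ ≠ 0 := by
      rintro rfl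
      rw [zero_pow two_ne_zero] at hγ
      exact exp_ne_zero hγ
    rw [← exp_log hγ0, ← exp_nsmul, exp_inj] at hγ
    exact ⟨log γ, by rw [hγ]; simp [two_mul]⟩
  · rintro ⟨k, rfl⟩
    exact ⟨exp k, by rw [exp_add, sq]⟩

theorem isSq_iff {x : ℤᵐ⁰} (hx : x ≠ 0) : (∃ γ : ℤᵐ⁰, x = γ ^ 2) ↔ Even (log x) := by
  conv_lhs => rw [← exp_log hx]
  exact exp_isSq_iff _

theorem isSq_div {x y : ℤᵐ⁰} (hx : x ≠ 0) (hy : y ≠ 0)
    (h : (∃ γ : ℤᵐ⁰, x = γ ^ 2) ↔ (∃ γ : ℤᵐ⁰, y = γ ^ 2)) : ∃ γ : ℤᵐ⁰, x / y = γ ^ 2 := by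
  rw [isSq_iff hx, isSq_iff hy] at h
  rw [isSq_iff (div_ne_zero hx hy), log_div hx hy, Int.even_sub]
  exact h

theorem finite_bad (K : Type) [Field K] [NumberField K] (m : ℕ) (hm : m ≠ 0) :
    {v : HeightOneSpectrum (𝓞 K) | (m : 𝓞 K) ∈ v.asIdeal}.Finite := by
  have h0 : Ideal.span {(m : 𝓞 K)} ≠ 0 := by
    rw [Ne, Ideal.zero_eq_bot, Ideal.span_singleton_eq_bot]
    exact_mod_cast hm
  refine (Ideal.finite_factors h0).subset ?_
  intro v hv
  exact Ideal.dvd_iff_le.2 ((Ideal.span_singleton_le_iff_mem _).2 hv)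

end SelmerParity

open SelmerParity in
theorem exists_finset_parity (K : Type) [Field K] [NumberField K] (m : ℕ) (hm : m ≠ 0) :
    ∃ D : Finset K, (∀ d ∈ D, d ≠ 0) ∧ ∀ a : K, a ≠ 0 →
      (∀ v : HeightOneSpectrum (𝓞 K), (m : 𝓞 K) ∉ v.asIdeal → ∃ γ : ℤᵐ⁰, v.valuation K a = γ ^ 2) →
      ∃ d ∈ D, ∀ v : HeightOneSpectrum (𝓞 K), ∃ γ : ℤᵐ⁰, v.valuation K (a / d) = γ ^ 2 := by
  classical
  have hfin : Finite {v : HeightOneSpectrum (𝓞 K) | (m : 𝓞 K) ∈ v.asIdeal} := finite_bad K m hm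
  let T := {v : HeightOneSpectrum (𝓞 K) | (m : 𝓞 K) ∈ v.asIdeal} → Prop
  have : Fintype T := Fintype.ofFinite T
  let P : K → Prop := fun a => a ≠ 0 ∧
    ∀ v : HeightOneSpectrum (𝓞 K), (m : 𝓞 K) ∉ v.asIdeal → ∃ γ : ℤᵐ⁰, v.valuation K a = γ ^ 2
  let par : K → T := fun a v => ∃ γ : ℤᵐ⁰, v.1.valuation K a = γ ^ 2
  let g : T → K := fun f => if h : ∃ a, P a ∧ par a = f then h.choose else 1
  refine ⟨Finset.univ.image g, ?_, ?_⟩
  · intro d hd
    obtain ⟨f, -, rfl⟩ := Finset.mem_image.1 hd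
    by_cases h : ∃ a, P a ∧ par a = f
    · have : g f = h.choose := dif_pos h
      rw [this]
      exact h.choose_spec.1.1
    · have : g f = 1 := dif_neg h
      rw [this]
      exact one_ne_zero
  · intro a ha hav
    have h : ∃ a', P a' ∧ par a' = par a := ⟨a, ⟨ha, hav⟩, rfl⟩
    refine ⟨g (par a), Finset.mem_image.2 ⟨par a, Finset.mem_univ _, rfl⟩, ?_⟩
    have hg : g (par a) = h.choose := dif_pos h
    rw [hg]
    obtain ⟨⟨hd0, hdv⟩, hpar⟩ := h.choose_spec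
    intro v
    rw [map_div₀]
    apply isSq_div ((Valuation.ne_zero_iff _).2 ha) ((Valuation.ne_zero_iff _).2 hd0)
    by_cases hv : (m : 𝓞 K) ∈ v.asIdeal
    · exact (iff_of_eq (congrFun hpar ⟨v, hv⟩)).symm
    · exact iff_of_true (hav v hv) (hdv v hv)

end Fermat.Agent.S17.W
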