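import Mathlib

/-!
# S17, part W, node W4a: units of a number field modulo squares are finite

`(𝓞 K)ˣ` is a finitely generated abelian group (Dirichlet; Mathlib: `NumberField.Units`, search for the
`Monoid.FG`/`Module.Finite ℤ (Additive (𝓞 K)ˣ)` instances), so `(𝓞 K)ˣ / squares` is finite; take
representatives.
-/

set_option autoImplicit false

namespace Fermat.Agent.S17.W

open NumberField

/-- A finitely generated commutative group is finite modulo `n`-th powers (`n > 0`):
representatives. -/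
theorem exists_finset_mod_pow (G : Type*) [CommGroup G] [Group.FG G] (n : ℕ) (hn : 0 < n) :
    ∃ E : Finset G, ∀ u : G, ∃ e ∈ E, ∃ w : G, u = e * w ^ n := by
  classical
  let H : Subgroup G := (powMonoidHom n : G →* G).range
  have htors : IsMulTorsion (G ⧸ H) := by
    intro x
    obtain ⟨g, rfl⟩ := QuotientGroup.mk_surjective x
    rw [isOfFinOrder_iff_pow_eq_one]
    refine ⟨n, hn, ?_⟩
    rw [← QuotientGroup.mk_pow, QuotientGroup.eq_one_iff]
    exact ⟨g, rfl⟩
  have hfin : Finite (G ⧸ H) := CommGroup.finite_of_fg_isMulTorsion _ htors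
  cases nonempty_fintype (G ⧸ H)
  refine ⟨Finset.univ.image (Quotient.out : G ⧸ H → G), fun u => ?_⟩
  refine ⟨Quotient.out (u : G ⧸ H), Finset.mem_image_of_mem _ (Finset.mem_univ _), ?_⟩
  have h : ((Quotient.out (u : G ⧸ H) : G) : G ⧸ H) = (u : G ⧸ H) := QuotientGroup.out_eq' _
  rw [QuotientGroup.eq] at h
  obtain ⟨w, hw⟩ := h
  refine ⟨w, ?_⟩
  have hw' : w ^ n = (Quotient.out (u : G ⧸ H))⁻¹ * u := hw
  rw [hw', mul_inv_cancel_left]

theorem exists_finset_units_mod_squares (K : Type) [Field K] [NumberField K] :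
    ∃ E : Finset (𝓞 K)ˣ, ∀ u : (𝓞 K)ˣ, ∃ e ∈ E, ∃ w : (𝓞 K)ˣ, u = e * w ^ 2 := by
  have : Group.FG (𝓞 K)ˣ := Group.fg_iff_monoid_fg.mpr inferInstance
  exact exists_finset_mod_pow (𝓞 K)ˣ 2 two_pos

end Fermat.Agent.S17.W
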