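import Mathlib
import Fermat.Agent.S14.G.IdealPow
import Fermat.Agent.S17.W.SelmerUnits
import Fermat.Agent.S17.W.SelmerClass
import Fermat.Agent.S17.W.SelmerParity

/-!
# S17, part W, node W4: finiteness of the Selmer group `K(S, 2)`

`a` with even valuations outside `m`:  `a = d a₁` (W4c), all valuations of `a₁` even, so `(a₁) = I ^ 2`
(`Fermat.Agent.S14.G.exists_fractionalIdeal_pow_eq`), so `a₁ = c u b ^ 2` (W4b), `u = e w ^ 2` (W4a).
`R = { d c e }`.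
-/

set_option autoImplicit false

namespace Fermat.Agent.S17.W

open NumberField IsDedekindDomain WithZero

theorem exists_finset_selmer (K : Type) [Field K] [NumberField K] (m : ℕ) (hm : m ≠ 0) :
    ∃ R : Finset K, (∀ r ∈ R, r ≠ 0) ∧ ∀ a : K, a ≠ 0 →
      (∀ v : HeightOneSpectrum (𝓞 K), (m : 𝓞 K) ∉ v.asIdeal → ∃ γ : ℤᵐ⁰, v.valuation K a = γ ^ 2) →
      ∃ r ∈ R, ∃ b : K, b ≠ 0 ∧ a = r * b ^ 2 := by
  classical
  obtain ⟨D, hD0, hD⟩ := exists_finset_parity K m hm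
  obtain ⟨C, hC0, hC⟩ := exists_finset_ideal_square K
  obtain ⟨E, hE⟩ := exists_finset_units_mod_squares K
  refine ⟨(D ×ˢ C ×ˢ E).image fun x => x.1 * x.2.1 * (((x.2.2 : (𝓞 K)ˣ) : 𝓞 K) : K), ?_, ?_⟩
  · intro r hr
    obtain ⟨⟨d, c, e⟩, hx, rfl⟩ := Finset.mem_image.mp hr
    simp only [Finset.mem_product] at hx
    have he : (((e : (𝓞 K)ˣ) : 𝓞 K) : K) ≠ 0 := by
      simp
    exact mul_ne_zero (mul_ne_zero (hD0 d hx.1) (hC0 c hx.2.1)) he
  · intro a ha hval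
    obtain ⟨d, hd, hdv⟩ := hD a ha hval
    have hd0 := hD0 d hd
    have had : a / d ≠ 0 := div_ne_zero ha hd0
    obtain ⟨c, hc, u, b, hb0, hab⟩ := hC (a / d) had
      (Fermat.Agent.S14.G.exists_fractionalIdeal_pow_eq (𝓞 K) K 2 two_ne_zero (a / d) had hdv)
    obtain ⟨e, he, w, huw⟩ := hE u
    have hw : (((w : (𝓞 K)ˣ) : 𝓞 K) : K) ≠ 0 := by
      simp
    refine ⟨d * c * (((e : (𝓞 K)ˣ) : 𝓞 K) : K), Finset.mem_image.mpr ⟨(d, c, e), ?_, rfl⟩,
      (((w : (𝓞 K)ˣ) : 𝓞 K) : K) * b, mul_ne_zero hw hb0, ?_⟩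
    · simp only [Finset.mem_product]
      exact ⟨hd, hc, he⟩
    · have h1 : a = d * (a / d) := by field_simp
      rw [h1, hab, huw]
      push_cast
      ring

end Fermat.Agent.S17.W
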