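import Mathlib

/-!
# S17, part W, node W3: quadratic Kummer generator

`U ≤ GK ≤ G_ℚ`, `U` open, "of index at most two" in `GK`.  Then there is `β ≠ 0` in `ℚ̄` with
`σ β = β` for `σ ∈ U` and `σ β = -β` for `σ ∈ GK \ U`.

Proof.  If `GK ≤ U` take `β = 1`.  Otherwise pick `τ ∈ GK \ U`.  `U` is closed, so
`U = fixingSubgroup (fixedField U)` (`InfiniteGalois.fixingSubgroup_fixedField`), hence there is
`θ ∈ fixedField U` with `τ θ ≠ θ`.  Put `β = θ - τ θ`.  For `σ ∈ U`: `τ⁻¹ σ τ ∈ U` (product of the two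
elements `τ⁻¹`, `σ τ` of `GK \ U`), so `σ τ θ = τ θ`.  For `σ ∈ GK \ U`: `τ⁻¹ σ ∈ U` and `σ τ ∈ U`, so
`σ θ = τ θ`, `σ τ θ = θ`.
Template for the Galois-theoretic boilerplate: `Fermat/Agent/S14/G/Resolvent.lean`.
-/

set_option autoImplicit false

namespace Fermat.Agent.S17.W

local notation "Qbar" => AlgebraicClosure ℚ
local notation "GQ" => (AlgebraicClosure ℚ ≃ₐ[ℚ] AlgebraicClosure ℚ)

theorem sqrtGen_isGalois_rat : IsGalois ℚ (AlgebraicClosure ℚ) := by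
  have h : (DivisionRing.toRatAlgebra : Algebra ℚ (AlgebraicClosure ℚ)) =
      AlgebraicClosure.instAlgebra ℚ := Subsingleton.elim _ _
  have : IsAlgClosure ℚ (AlgebraicClosure ℚ) := by
    rw [h]
    infer_instance
  infer_instance

theorem exists_sqrt_generator (GK U : Subgroup GQ) (hU : IsOpen (U : Set GQ)) (hUK : U ≤ GK)
    (hidx : ∀ σ ∈ GK, ∀ τ ∈ GK, σ ∉ U → τ ∉ U → σ * τ ∈ U) :
    ∃ β : Qbar, β ≠ 0 ∧ (∀ σ ∈ U, σ β = β) ∧ (∀ σ ∈ GK, σ ∉ U → σ β = -β) := by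
  classical
  have := sqrtGen_isGalois_rat
  by_cases hle : GK ≤ U
  · exact ⟨1, one_ne_zero, fun σ _ => map_one σ, fun σ hσ hσU => absurd (hle hσ) hσU⟩
  obtain ⟨τ, hτK, hτU⟩ := SetLike.not_le_iff_exists.1 hle
  have hclosed : IsClosed (U : Set GQ) := U.isClosed_of_isOpen hU
  have hfix : (IntermediateField.fixedField U).fixingSubgroup = U :=
    InfiniteGalois.fixingSubgroup_fixedField (⟨U, hclosed⟩ : ClosedSubgroup GQ)
  -- an element of the fixed field moved by `τ`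
  have hθ : ∃ θ : Qbar, (∀ σ ∈ U, σ θ = θ) ∧ τ θ ≠ θ := by
    by_contra hcon
    push Not at hcon
    apply hτU
    rw [← hfix, IntermediateField.mem_fixingSubgroup_iff]
    intro x hx
    refine hcon x fun σ hσ => ?_
    exact (IntermediateField.mem_fixedField_iff U x).1 hx σ hσ
  obtain ⟨θ, hθU, hτθ⟩ := hθ
  have hτinvK : τ⁻¹ ∈ GK := inv_mem hτK
  have hτinvU : τ⁻¹ ∉ U := fun h => hτU (by simpa using inv_mem h)
  refine ⟨θ - τ θ, sub_ne_zero.2 (Ne.symm hτθ), ?_, ?_⟩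
  · intro σ hσ
    have hστK : σ * τ ∈ GK := mul_mem (hUK hσ) hτK
    have hστU : σ * τ ∉ U := fun h => hτU (by simpa using mul_mem (inv_mem hσ) h)
    have h1 : τ⁻¹ * (σ * τ) ∈ U := hidx _ hτinvK _ hστK hτinvU hστU
    have h2 : (τ⁻¹ * (σ * τ)) θ = θ := hθU _ h1
    have h3 : σ (τ θ) = τ θ := by
      have := congrArg τ h2
      simpa [AlgEquiv.mul_apply] using this
    rw [map_sub, hθU σ hσ, h3]
  · intro σ hσK hσU
    have h1 : τ⁻¹ * σ ∈ U := hidx _ hτinvK _ hσK hτinvU hσU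
    have h2 : σ * τ ∈ U := hidx _ hσK _ hτK hσU hτU
    have h3 : σ θ = τ θ := by
      have := congrArg τ (hθU _ h1)
      simpa [AlgEquiv.mul_apply] using this
    have h4 : σ (τ θ) = θ := by
      have := hθU _ h2
      simpa [AlgEquiv.mul_apply] using this
    rw [map_sub, h3, h4, neg_sub]

end Fermat.Agent.S17.W
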