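import Mathlib
import Fermat.Prelude.Def_FLTPrelim_Ramification
import Fermat.Agent.S14.G.Bridge

/-!
# S17, part W, node W5b: inertia groups of the primes not dividing `m` of the fixed field of `J`

Version "outside `m`" of `Fermat.Agent.S14.G.inertia_trivial_of` (file `Fermat/Agent/S14/G/Bridge.lean`, frozen):
copy that proof (its private lemmas `bridge_lift`, `bridge_numberField` have to be copied too, under new names).
The only new point: `exists_valuationSubring_of_prime` produces `ℓ`, `A` with
`x ∈ P ↔ x ∈ A.nonunits`; if `ℓ ∣ m` then `(m : ℚ̄) ∈ A.nonunits` (multiple of `ℓ` by an integer, integers are in `A`),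
so `(m : 𝓞 M) ∈ P`, contradiction.
-/

set_option autoImplicit false
set_option linter.style.haveILetI false

namespace Fermat.Agent.S17.W

open NumberField

local notation "Qbar" => AlgebraicClosure ℚ
local notation "GQ" => (AlgebraicClosure ℚ ≃ₐ[ℚ] AlgebraicClosure ℚ)

/-- Lifting a `K`-automorphism of an intermediate field of `ℚ̄/K` to an element of `G_ℚ`
fixing `K`. -/
theorem unramBridge_lift (K : IntermediateField ℚ Qbar) (M' : IntermediateField K Qbar)
    (τ : M' ≃ₐ[K] M') :
    ∃ γ : GQ, γ ∈ K.fixingSubgroup ∧ ∀ x : M', γ (x : Qbar) = ((τ x : M') : Qbar) := by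
  haveI := Fermat.Agent.Lib.Frobenius.isGalois_rat
  haveI : Normal K Qbar := Normal.tower_top_of_normal ℚ K Qbar
  refine ⟨(τ.liftNormal Qbar).restrictScalars ℚ, ?_, ?_⟩
  · rw [IntermediateField.mem_fixingSubgroup_iff]
    intro x hx
    exact (τ.liftNormal Qbar).commutes ⟨x, hx⟩
  · intro x
    exact τ.liftNormal_commutes Qbar x

/-- The fixed field of an open subgroup, regarded over a subfield `K`, is a number field. -/
theorem unramBridge_numberField (J : Subgroup GQ) (hJ : IsOpen (J : Set GQ))
    (K : IntermediateField ℚ Qbar) (hKM : K ≤ IntermediateField.fixedField J) :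
    NumberField (IntermediateField.extendScalars hKM) := by
  haveI := Fermat.Agent.Lib.Frobenius.isGalois_rat
  have hclosed : IsClosed (J : Set GQ) := Subgroup.isClosed_of_isOpen J hJ
  set M := IntermediateField.fixedField J with hM
  have hJM : M.fixingSubgroup = J := InfiniteGalois.fixingSubgroup_fixedField ⟨J, hclosed⟩
  haveI : FiniteDimensional ℚ M := (InfiniteGalois.isOpen_iff_finite M).1 (by rw [hJM]; exact hJ)
  let e : M ≃ₗ[ℚ] (IntermediateField.extendScalars hKM) :=
    { toFun := fun x => ⟨x.1, (IntermediateField.mem_extendScalars hKM).2 x.2⟩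
      invFun := fun x => ⟨x.1, (IntermediateField.mem_extendScalars hKM).1 x.2⟩
      left_inv := fun _ => rfl
      right_inv := fun _ => rfl
      map_add' := fun _ _ => rfl
      map_smul' := fun r x => by
        apply Subtype.ext
        simp [Algebra.smul_def] }
  haveI : FiniteDimensional ℚ (IntermediateField.extendScalars hKM) := Module.Finite.equiv e
  exact ⟨⟩

theorem inertia_trivial_of_at (m : ℕ) (J : Subgroup GQ) [J.Normal] (hJ : IsOpen (J : Set GQ))
    (K : IntermediateField ℚ Qbar) (hKM : K ≤ IntermediateField.fixedField J)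
    (h : ∀ ℓ : ℕ, ℓ.Prime → ¬ ℓ ∣ m → ∀ A : ValuationSubring Qbar, A.LiesOverPrime ℓ →
      ∀ σ ∈ A.inertiaSubgroupIn ℚ, σ ∈ K.fixingSubgroup → σ ∈ J)
    (P : Ideal (𝓞 (IntermediateField.extendScalars hKM))) (hP : P.IsPrime) (hP0 : P ≠ ⊥)
    (hmP : (m : 𝓞 (IntermediateField.extendScalars hKM)) ∉ P)
    (τ : (IntermediateField.extendScalars hKM) ≃ₐ[K] (IntermediateField.extendScalars hKM))
    (hτ : ∀ x : 𝓞 (IntermediateField.extendScalars hKM), ∃ y ∈ P,
      (y : IntermediateField.extendScalars hKM) = τ (x : IntermediateField.extendScalars hKM)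
        - (x : IntermediateField.extendScalars hKM)) :
    τ = 1 := by
  classical
  haveI := Fermat.Agent.Lib.Frobenius.isGalois_rat
  have hclosed : IsClosed (J : Set GQ) := Subgroup.isClosed_of_isOpen J hJ
  haveI := unramBridge_numberField J hJ K hKM
  obtain ⟨γ, hγK, hγ⟩ := unramBridge_lift K (IntermediateField.extendScalars hKM) τ
  obtain ⟨ℓ, A, hℓ, hA, hmem⟩ :=
    Fermat.Agent.S14.G.exists_valuationSubring_of_prime (IntermediateField.extendScalars hKM)
      P hP hP0
  have hℓm : ¬ ℓ ∣ m := by
    rintro ⟨c, rfl⟩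
    apply hmP
    rw [hmem]
    have hA' : (ℓ : Qbar) ∈ A.nonunits := hA
    have hc : (c : Qbar) ∈ A := natCast_mem A c
    have h1 : (ℓ : Qbar) * (c : Qbar) ∈ A.nonunits := by
      rw [ValuationSubring.mem_nonunits_iff] at hA' ⊢
      rw [map_mul]
      exact mul_lt_one_of_lt_of_le hA' ((A.valuation_le_one_iff _).mpr hc)
    simpa using h1
  have hJK : J ≤ K.fixingSubgroup := by
    intro j hj
    rw [IntermediateField.mem_fixingSubgroup_iff]
    intro x hx
    exact hKM hx ⟨j, hj⟩
  obtain ⟨j, hj, hjγ⟩ := Fermat.Agent.S13.Minkowski.exists_mul_mem_inertia J hclosed A γ (by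
    intro x hx hfix
    have hxM : x ∈ IntermediateField.extendScalars hKM :=
      (IntermediateField.mem_extendScalars hKM).2 (fun j => hfix j.1 j.2)
    have hxi : IsIntegral ℤ (⟨x, hxM⟩ : IntermediateField.extendScalars hKM) :=
      (isIntegral_algebraMap_iff (A := IntermediateField.extendScalars hKM) (B := Qbar)
        (algebraMap (IntermediateField.extendScalars hKM) Qbar).injective).1 hx
    obtain ⟨y, hy, hyx⟩ := hτ ⟨⟨x, hxM⟩, hxi⟩
    rw [hmem, hyx] at hy
    have h3 := hγ ⟨x, hxM⟩
    rw [h3]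
    exact hy)
  have hγJ : γ ∈ J :=
    (Subgroup.mul_mem_cancel_left J hj).1 (h ℓ hℓ hℓm A hA _ hjγ (mul_mem (hJK hj) hγK))
  ext x
  have h1 := hγ x
  have h2 : γ (x : Qbar) = x := ((IntermediateField.mem_extendScalars hKM).1 x.2) ⟨γ, hγJ⟩
  rw [h2] at h1
  exact h1.symm

end Fermat.Agent.S17.W
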