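import Mathlib
import Fermat.Prelude.Def_FLTPrelim_Ramification
import Fermat.Agent.S17.W.UnramVal
import Fermat.Agent.S17.W.UnramBridge

/-!
# S17, part W, node W5: unramified outside `m`  =>  even valuations outside `m`

`K` a number field inside `ℚ̄`, `J ≤ G_K` an open normal subgroup of `G_ℚ` containing `I_A ∩ G_K` for all `A` over
primes `ℓ ∤ m`; `β` fixed by `J`, `β ^ 2 = a ∈ K`.  Then `v(a)` is even for all `v ∤ m`.

Assembly of W5a, W5b; TEMPLATE: part (a) of `Fermat.Agent.S14.G.kummer_generator_mem`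
(`Fermat/Agent/S14/G/Main.lean`, lines 50-110: the instances `NumberField M'`, `IsGalois K M'` for
`M' = extendScalars hKM`, `M = fixedField J`).
New point: `P.LiesOver v.asIdeal` and `(m : 𝓞 K) ∉ v.asIdeal` give `(m : 𝓞 M') ∉ P`.
-/

set_option autoImplicit false
set_option linter.style.haveILetI false

namespace Fermat.Agent.S17.W

open NumberField IsDedekindDomain WithZero

local notation "Qbar" => AlgebraicClosure ℚ
local notation "GQ" => (AlgebraicClosure ℚ ≃ₐ[ℚ] AlgebraicClosure ℚ)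

theorem valuation_sq_of_unramified (m : ℕ) (K : IntermediateField ℚ Qbar) [NumberField K]
    (J : Subgroup GQ) [J.Normal] (hJ : IsOpen (J : Set GQ)) (hJK : J ≤ K.fixingSubgroup)
    (hin : ∀ ℓ : ℕ, ℓ.Prime → ¬ ℓ ∣ m → ∀ A : ValuationSubring Qbar, A.LiesOverPrime ℓ →
      ∀ σ ∈ A.inertiaSubgroupIn ℚ, σ ∈ K.fixingSubgroup → σ ∈ J)
    (β : Qbar) (hβJ : ∀ σ ∈ J, σ β = β) (a : K) (ha : (a : Qbar) = β ^ 2)
    (v : HeightOneSpectrum (𝓞 K)) (hv : (m : 𝓞 K) ∉ v.asIdeal) :
    ∃ γ : ℤᵐ⁰, v.valuation K a = γ ^ 2 := by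
  classical
  haveI : IsGalois ℚ Qbar := Fermat.Agent.Lib.Frobenius.isGalois_rat
  have hclosed : IsClosed (J : Set GQ) := Subgroup.isClosed_of_isOpen J hJ
  set M := IntermediateField.fixedField J with hM
  have hJM : M.fixingSubgroup = J := InfiniteGalois.fixingSubgroup_fixedField ⟨J, hclosed⟩
  haveI : FiniteDimensional ℚ M := (InfiniteGalois.isOpen_iff_finite M).1 (by rw [hJM]; exact hJ)
  haveI : IsGalois ℚ M := (InfiniteGalois.normal_iff_isGalois M).1 (by rw [hJM]; infer_instance)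
  have hKM : K ≤ M := by
    intro x hx j
    exact hJK j.2 ⟨x, hx⟩
  set M' := IntermediateField.extendScalars hKM with hM'
  let eMM : M ≃ₐ[ℚ] M' :=
    { toFun := fun x => ⟨x.1, x.2⟩
      invFun := fun x => ⟨x.1, x.2⟩
      left_inv := fun _ => rfl
      right_inv := fun _ => rfl
      map_mul' := fun _ _ => rfl
      map_add' := fun _ _ => rfl
      commutes' := fun _ => rfl }
  haveI : FiniteDimensional ℚ M' := eMM.toLinearEquiv.finiteDimensional
  haveI : NumberField M' := ⟨⟩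
  haveI : IsGalois ℚ M' := IsGalois.of_algEquiv eMM
  haveI : IsGalois K M' := IsGalois.tower_top_of_isGalois ℚ K M'
  let βM : M' := ⟨β, fun j => hβJ j.1 j.2⟩
  have hx : algebraMap K M' a = βM ^ 2 := Subtype.ext ha
  apply valuation_eq_pow_of_inertia_trivial_at K M' v _ 2 a βM hx
  intro P hP hP0 hPv τ hτ
  refine inertia_trivial_of_at m J hJ K hKM hin P hP hP0 ?_ τ hτ
  intro hmP
  apply hv
  rw [hPv.over, Ideal.mem_comap]
  simpa using hmP

end Fermat.Agent.S17.W
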