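import Mathlib
import Fermat.Prelude.Def_FLTPrelim_Ramification
import Fermat.Agent.Lib.Frobenius.Integers
import Fermat.Agent.S17.W.SqrtGen
import Fermat.Agent.S17.W.Selmer
import Fermat.Agent.S17.W.Unram

/-!
# S17, part W, node W6: quadratic extensions of a number field unramified outside `m` lie in ONE number field

`GK` an open subgroup of `G_ℚ` (`K = fixedField GK`).  There is an open `H ≤ GK` contained in every `U ≤ GK` "of
index at most two" which contains an open normal subgroup `Jy` of `G_ℚ` with `I_A ∩ GK ≤ Jy` for all `A` over `ℓ ∤ m`.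

Proof.  `K := fixedField GK` is a number field and `K.fixingSubgroup = GK` (`InfiniteGalois`, see the boilerplate in
`Fermat/Agent/S14/G/Main.lean`).  `R` := the finite set of W4 (`exists_finset_selmer ↥K m hm`); for `r ∈ R` choose a
square root `s r ∈ ℚ̄` (`IsAlgClosed.exists_pow_nat_eq`).  `H := GK ⊓ ⨅ r ∈ R, stabilizer (s r)`: open (finite
intersection; `stabilizer_isOpen_of_isIntegral` as in `Fermat/Agent/S13/MinkowskiLift.lean`, or fixingSubgroup of a f.d. field).
Given `U`, `Jy`: W3 gives `β`; `a := β ^ 2` is fixed by `GK` so it lies in `K`; `β` is fixed by `Jy ≤ U`;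
W5 gives even valuations outside `m`; W4: `a = r b ^ 2`, so `(β / b) ^ 2 = (s r) ^ 2`, `β = ± b s r` is fixed by every
`σ ∈ H`; if `σ ∉ U` then `σ β = -β`, so `β = 0`: contradiction.
-/

set_option autoImplicit false
set_option linter.style.haveILetI false

namespace Fermat.Agent.S17.W

local notation "Qbar" => AlgebraicClosure ℚ
local notation "GQ" => (AlgebraicClosure ℚ ≃ₐ[ℚ] AlgebraicClosure ℚ)

theorem exists_open_le_of_index_two (m : ℕ) (hm : m ≠ 0) (GK : Subgroup GQ)
    (hGK : IsOpen (GK : Set GQ)) :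
    ∃ H : Subgroup GQ, IsOpen (H : Set GQ) ∧ H ≤ GK ∧
      ∀ (Jy U : Subgroup GQ), Jy.Normal → IsOpen (Jy : Set GQ) → Jy ≤ U → U ≤ GK →
        (∀ σ ∈ GK, ∀ τ ∈ GK, σ ∉ U → τ ∉ U → σ * τ ∈ U) →
        (∀ ℓ : ℕ, ℓ.Prime → ¬ ℓ ∣ m → ∀ A : ValuationSubring Qbar, A.LiesOverPrime ℓ →
          ∀ σ ∈ A.inertiaSubgroupIn ℚ, σ ∈ GK → σ ∈ Jy) →
        H ≤ U := by
  classical
  haveI : IsGalois ℚ Qbar := Fermat.Agent.Lib.Frobenius.isGalois_rat
  haveI : Algebra.IsIntegral ℚ Qbar := Fermat.Agent.Lib.Frobenius.isIntegral_rat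
  have hclosed : IsClosed (GK : Set GQ) := Subgroup.isClosed_of_isOpen GK hGK
  set K : IntermediateField ℚ Qbar := IntermediateField.fixedField GK with hK
  have hGKK : K.fixingSubgroup = GK := InfiniteGalois.fixingSubgroup_fixedField ⟨GK, hclosed⟩
  haveI : FiniteDimensional ℚ K :=
    (InfiniteGalois.isOpen_iff_finite K).1 (by rw [hGKK]; exact hGK)
  haveI : NumberField K := ⟨⟩
  obtain ⟨R, -, hR⟩ := exists_finset_selmer ↥K m hm
  -- square roots of the finitely many representatives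
  have hs : ∀ r : K, ∃ s : Qbar, s ^ 2 = (r : Qbar) :=
    fun r => IsAlgClosed.exists_pow_nat_eq _ (by norm_num)
  choose s hs using hs
  let L : IntermediateField ℚ Qbar := K ⊔ IntermediateField.adjoin ℚ (s '' (R : Set K))
  haveI : Finite (s '' (R : Set K)) := (R.finite_toSet.image s).to_subtype
  haveI : FiniteDimensional ℚ (IntermediateField.adjoin ℚ (s '' (R : Set K))) :=
    IntermediateField.finiteDimensional_adjoin fun x _ => Algebra.IsIntegral.isIntegral x
  haveI : FiniteDimensional ℚ L := IntermediateField.finiteDimensional_sup _ _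
  have hLK : L.fixingSubgroup ≤ GK := by
    rw [← hGKK]
    exact IntermediateField.fixingSubgroup_le le_sup_left
  refine ⟨L.fixingSubgroup, (InfiniteGalois.isOpen_iff_finite L).2 inferInstance, hLK, ?_⟩
  intro Jy U hJn hJo hJU hUK hidx hin σ hσ
  by_contra hσU
  have hUo : IsOpen (U : Set GQ) := Subgroup.isOpen_mono hJU hJo
  obtain ⟨β, hβ0, hβU, hβn⟩ := exists_sqrt_generator GK U hUo hUK hidx
  -- `β ^ 2` lies in `K`
  have hβK : β ^ 2 ∈ K := by
    rw [hK, IntermediateField.mem_fixedField_iff]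
    intro τ hτ
    by_cases hτU : τ ∈ U
    · rw [map_pow, hβU τ hτU]
    · rw [map_pow, hβn τ hτ hτU, neg_sq]
  let a : K := ⟨β ^ 2, hβK⟩
  have ha0 : a ≠ 0 := by
    intro h
    have : (a : Qbar) = 0 := congrArg Subtype.val h
    exact pow_ne_zero 2 hβ0 this
  haveI := hJn
  obtain ⟨r, hr, b, -, hab⟩ := hR a ha0 (fun v hv =>
    valuation_sq_of_unramified m K Jy hJo (by rw [hGKK]; exact hJU.trans hUK)
      (fun ℓ hℓ hℓm A hA τ hτ hτK => hin ℓ hℓ hℓm A hA τ hτ (by rw [← hGKK]; exact hτK))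
      β (fun τ hτ => hβU τ (hJU hτ)) a rfl v hv)
  have hab' : β ^ 2 = (s r * (b : Qbar)) ^ 2 := by
    have : (a : Qbar) = (r : Qbar) * (b : Qbar) ^ 2 := congrArg Subtype.val hab
    rw [mul_pow, hs]
    exact this
  -- `σ` fixes `s r` and `b`
  have hσs : σ (s r) = s r := by
    have hmem : s r ∈ L := (le_sup_right : _ ≤ L)
      (IntermediateField.subset_adjoin ℚ _ ⟨r, hr, rfl⟩)
    exact (IntermediateField.mem_fixingSubgroup_iff L σ).1 hσ _ hmem
  have hσb : σ (b : Qbar) = b := by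
    have hmem : (b : Qbar) ∈ L := (le_sup_left : K ≤ L) b.2
    exact (IntermediateField.mem_fixingSubgroup_iff L σ).1 hσ _ hmem
  have hσβ : σ β = β := by
    rcases sq_eq_sq_iff_eq_or_eq_neg.1 hab' with h | h
    · rw [h, map_mul, hσs, hσb]
    · rw [h, map_neg, map_mul, hσs, hσb]
  have hneg := hβn σ (hLK hσ) hσU
  rw [hσβ] at hneg
  have h2 : (2 : Qbar) * β = 0 := by
    rw [two_mul]
    nth_rewrite 1 [hneg]
    exact neg_add_cancel β
  rcases mul_eq_zero.1 h2 with h | h
  · exact two_ne_zero h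
  · exact hβ0 h

end Fermat.Agent.S17.W
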