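import Mathlib
import Fermat.Prelude.Def_FLTPrelim_Ramification
import Fermat.Agent.S17.W.IndexTwo
import Fermat.Agent.S17.W.Kummer

/-!
# S17, part W, node W7: one open subgroup fixes all the halves of `G_ℚ`-fixed elements

`J` an abelian group with an action of `G_ℚ`, `J[2]` finite, open stabilisers, and inertia at `ℓ ∤ m` acts trivially on
every `y` with `2 y ∈ J^G`.

Proof.  `GK := ⨅ t ∈ J[2], stabilizer t` (open: finite intersection; normal since `J[2]` is stable).  `H` := the subgroup of W6.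
Let `2 y` be fixed.  For `σ ∈ GK` put `φ σ = σ y - y ∈ J[2]`; `φ (σ τ) = σ (φ τ) + φ σ = φ σ + φ τ` on `GK`.
`Jy := GK ⊓ stabilizer y` is open, and normal in `G_ℚ`: for `τ ∈ G_ℚ`, `σ ∈ GK`: `φ (τ σ τ⁻¹) = τ (φ σ)`
(write `τ⁻¹ y = y + t`, `t ∈ J[2]`, `σ t = t`).
Let `σ ∈ H` and suppose `t₀ := φ σ ≠ 0`.  W2 gives `T'`; `U := {τ ∈ GK | φ τ ∈ T'}` is a subgroup, `Jy ≤ U ≤ GK`,
of index at most two.  W6: `H ≤ U`, so `t₀ ∈ T'`: contradiction.
-/

set_option autoImplicit false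

namespace Fermat.Agent.S17.W

local notation "Qbar" => AlgebraicClosure ℚ
local notation "GQ" => (AlgebraicClosure ℚ ≃ₐ[ℚ] AlgebraicClosure ℚ)

theorem exists_uniform_open {J : Type*} [AddCommGroup J] [DistribMulAction GQ J] (m : ℕ)
    (hm : m ≠ 0) (hfin : {t : J | 2 • t = 0}.Finite)
    (hopen : ∀ y : J, IsOpen ((MulAction.stabilizer GQ y : Subgroup GQ) : Set GQ))
    (hunr : ∀ y : J, (∀ σ : GQ, σ • (2 • y) = 2 • y) → ∀ ℓ : ℕ, ℓ.Prime → ¬ ℓ ∣ m →
      ∀ A : ValuationSubring Qbar, A.LiesOverPrime ℓ → ∀ σ ∈ A.inertiaSubgroupIn ℚ, σ • y = y) :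
    ∃ H : Subgroup GQ, IsOpen (H : Set GQ) ∧
      ∀ y : J, (∀ σ : GQ, σ • (2 • y) = 2 • y) → ∀ σ ∈ H, σ • y = y := by
  classical
  have hfin' : Finite {t : J | 2 • t = 0} := hfin
  let GK : Subgroup GQ := ⨅ t : {t : J | 2 • t = 0}, MulAction.stabilizer GQ (t : J)
  have hmemGK : ∀ σ : GQ, σ ∈ GK ↔ ∀ t : J, 2 • t = 0 → σ • t = t := by
    intro σ
    simp only [GK, Subgroup.mem_iInf, MulAction.mem_stabilizer_iff]
    constructor
    · intro h t ht
      exact h ⟨t, ht⟩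
    · intro h t
      exact h t t.2
  have hGKopen : IsOpen (GK : Set GQ) := by
    have : (GK : Set GQ) = ⋂ t : {t : J | 2 • t = 0},
        ((MulAction.stabilizer GQ (t : J) : Subgroup GQ) : Set GQ) := Subgroup.coe_iInf
    rw [this]
    exact isOpen_iInter_of_finite fun t => hopen t
  obtain ⟨H, hHopen, hHGK, hH⟩ := exists_open_le_of_index_two m hm GK hGKopen
  refine ⟨H, hHopen, ?_⟩
  intro y hy σ hσ
  by_contra hne
  have hsmul2 : ∀ (τ : GQ) (z : J), τ • (2 • z) = 2 • (τ • z) := by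
    intro τ z
    rw [two_nsmul, two_nsmul, smul_add]
  -- the cocycle
  let φ : GQ → J := fun τ => τ • y - y
  have hφ2 : ∀ τ, 2 • φ τ = 0 := by
    intro τ
    show 2 • (τ • y - y) = 0
    rw [smul_sub, ← hsmul2, hy, sub_self]
  have hφmul : ∀ τ τ', φ (τ * τ') = τ • φ τ' + φ τ := by
    intro τ τ'
    show (τ * τ') • y - y = τ • (τ' • y - y) + (τ • y - y)
    rw [mul_smul, smul_sub]
    abel
  have hφmul' : ∀ τ ∈ GK, ∀ τ', φ (τ * τ') = φ τ' + φ τ := by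
    intro τ hτ τ'
    rw [hφmul, (hmemGK τ).mp hτ _ (hφ2 τ')]
  have hφ1 : φ 1 = 0 := by
    show (1 : GQ) • y - y = 0
    rw [one_smul, sub_self]
  -- the open normal subgroup
  let Jy : Subgroup GQ := GK ⊓ MulAction.stabilizer GQ y
  have hJyopen : IsOpen (Jy : Set GQ) := by
    have : (Jy : Set GQ) = (GK : Set GQ) ∩ ((MulAction.stabilizer GQ y : Subgroup GQ) : Set GQ) :=
      Subgroup.coe_inf _ _
    rw [this]
    exact hGKopen.inter (hopen y)
  have hJyN : Jy.Normal := by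
    constructor
    intro s hs τ
    obtain ⟨hs1, hs2⟩ := Subgroup.mem_inf.mp hs
    have hs2' : s • y = y := hs2
    refine Subgroup.mem_inf.mpr ⟨?_, ?_⟩
    · rw [hmemGK]
      intro t ht
      have ht' : 2 • (τ⁻¹ • t) = 0 := by rw [← hsmul2, ht, smul_zero]
      rw [mul_smul, mul_smul, (hmemGK s).mp hs1 _ ht', smul_inv_smul]
    · show (τ * s * τ⁻¹) • y = y
      have h1 : τ⁻¹ • y = y + φ τ⁻¹ := by
        show _ = y + (τ⁻¹ • y - y)
        abel
      have h2 : s • (τ⁻¹ • y) = τ⁻¹ • y := by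
        rw [h1, smul_add, hs2', (hmemGK s).mp hs1 _ (hφ2 _)]
      rw [mul_smul, mul_smul, h2, smul_inv_smul]
  obtain ⟨T', ht₀, hT'⟩ := exists_addSubgroup_avoiding (φ σ) (hφ2 σ) (sub_ne_zero.mpr hne)
  let U : Subgroup GQ :=
    { carrier := {τ | τ ∈ GK ∧ φ τ ∈ T'}
      one_mem' := ⟨GK.one_mem, by rw [hφ1]; exact T'.zero_mem⟩
      mul_mem' := by
        rintro a b ⟨ha, ha'⟩ ⟨hb, hb'⟩
        exact ⟨GK.mul_mem ha hb, by rw [hφmul' a ha]; exact T'.add_mem hb' ha'⟩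
      inv_mem' := by
        rintro a ⟨ha, ha'⟩
        refine ⟨GK.inv_mem ha, ?_⟩
        have h := hφmul' a⁻¹ (GK.inv_mem ha) a
        rw [inv_mul_cancel, hφ1] at h
        have h' : φ a⁻¹ = - φ a := by
          rw [eq_neg_iff_add_eq_zero, add_comm]
          exact h.symm
        rw [h']
        exact T'.neg_mem ha' }
  have hHU : H ≤ U := by
    refine hH Jy U hJyN hJyopen ?_ ?_ ?_ ?_
    · intro τ hτ
      obtain ⟨h1, h2⟩ := Subgroup.mem_inf.mp hτ
      have h2' : τ • y = y := h2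
      refine ⟨h1, ?_⟩
      show τ • y - y ∈ T'
      rw [h2', sub_self]
      exact T'.zero_mem
    · intro τ hτ
      exact hτ.1
    · intro a ha b hb haU hbU
      refine ⟨GK.mul_mem ha hb, ?_⟩
      rw [hφmul' a ha]
      exact hT' _ _ (hφ2 b) (hφ2 a) (fun h => hbU ⟨hb, h⟩) (fun h => haU ⟨ha, h⟩)
    · intro ℓ hℓ hℓm A hA τ hτ hτGK
      exact Subgroup.mem_inf.mpr ⟨hτGK, hunr y hy ℓ hℓ hℓm A hA τ hτ⟩
  exact ht₀ (hHU hσ).2

end Fermat.Agent.S17.W
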