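import Mathlib
import Fermat.Prelude.Def_FLTPrelim_Ramification
import Fermat.Agent.S17.W.Abstract
import Fermat.Agent.S17.W.Uniform

/-!
# S17, part W, node W8: the abstract weak Mordell-Weil theorem for `G_ℚ`-modules

W7 gives an open `H`; an open subgroup of the compact group `G_ℚ` has finite index; W1.
-/

set_option autoImplicit false

namespace Fermat.Agent.S17.W

local notation "Qbar" => AlgebraicClosure ℚ
local notation "GQ" => (AlgebraicClosure ℚ ≃ₐ[ℚ] AlgebraicClosure ℚ)

theorem abstract_weakMW {J : Type*} [AddCommGroup J] [DistribMulAction GQ J] (m : ℕ)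
    (hm : m ≠ 0) (hdiv : ∀ x : J, ∃ y : J, 2 • y = x) (hfin : {t : J | 2 • t = 0}.Finite)
    (hopen : ∀ y : J, IsOpen ((MulAction.stabilizer GQ y : Subgroup GQ) : Set GQ))
    (hunr : ∀ y : J, (∀ σ : GQ, σ • (2 • y) = 2 • y) → ∀ ℓ : ℕ, ℓ.Prime → ¬ ℓ ∣ m →
      ∀ A : ValuationSubring Qbar, A.LiesOverPrime ℓ → ∀ σ ∈ A.inertiaSubgroupIn ℚ, σ • y = y) :
    (nsmulAddMonoidHom (α := ↥(FixedPoints.addSubgroup GQ J)) 2).range.FiniteIndex := by
  obtain ⟨H, hHo, hH⟩ := exists_uniform_open m hm hfin hopen hunr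
  have hcl : IsAlgClosure ℚ Qbar := by
    have h : (DivisionRing.toRatAlgebra : Algebra ℚ Qbar) = AlgebraicClosure.instAlgebra ℚ :=
      Subsingleton.elim _ _
    rw [h]
    infer_instance
  have hgal : IsGalois ℚ Qbar := inferInstance
  have : Finite (GQ ⧸ H) := H.quotient_finite_of_isOpen hHo
  have : H.FiniteIndex := Subgroup.finiteIndex_of_finite_quotient
  exact finiteIndex_range_nsmul_of_uniform 2 hdiv hfin H hH

end Fermat.Agent.S17.W
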