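import Fermat.Agent.S27.CaseC

/-!
# S17, part W, node W13: `Pic0` of a complex function field is divisible

The Abel-Jacobi homomorphism `E : ℂ^g →+ Pic0 ℂ F` of S27 is SURJECTIVE: its range contains all classes
`[v] - [P0]` (the class modulo the range is locally constant on the connected space of places), and these
generate `Pic0`.  Then `x = E u = n • E (u / n)`.
The inputs are obtained as in `Fermat.Agent.S27.card_torsion_complex` (`Fermat/Agent/S27/CaseC.lean`).
-/

set_option autoImplicit false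

noncomputable section

namespace Fermat.Agent.S17.W

open AlgebraicCurve Fermat.Agent.S24.FF Fermat.Agent.S27

/-- the Abel-Jacobi homomorphism is surjective -/
theorem abelJacobi_surjective {F : Type*} [Field F] [Algebra ℂ F] [IsFF1 ℂ F] [NonConst ℂ F]
    (E₁ : (Fin (genusFF ℂ F) → ℂ) →+ Pic0 ℂ F)
    (hE : ∀ χ : Chart F, ∃ A : ℂ → (Fin (genusFF ℂ F) → ℂ),
      ∀ τ ∈ χ.dom, ∀ τ' ∈ χ.dom, cls (pt (χ.pl τ) - pt (χ.pl τ')) = E₁ (A τ - A τ')) :
    Function.Surjective E₁ := by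
  classical
  have : Infinite (Place ℂ F) := infinite_place (K := ℂ)
  obtain ⟨P0⟩ : Nonempty (Place ℂ F) := inferInstance
  have hrange : ∀ v : Place ℂ F, cls (pt v - pt P0) ∈ E₁.range := by
    intro v
    have key := E.eq_of_const_on_charts
      (fun w : Place ℂ F => (QuotientAddGroup.mk (cls (pt w - pt P0)) : Pic0 ℂ F ⧸ E₁.range))
      (fun p => by
        obtain ⟨χ, hχ, hn⟩ := exists_chart_nhd p
        refine ⟨χ, hχ, hn, fun τ hτ => ?_⟩
        obtain ⟨A, hA⟩ := hE χ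
        have h1 := hA τ hτ χ.c χ.c_mem_dom
        rw [hχ] at h1
        rw [QuotientAddGroup.eq]
        refine ⟨A χ.c - A τ, ?_⟩
        have h2 : pt (χ.pl τ) - pt p = (pt (χ.pl τ) - pt P0) - (pt p - pt P0) := by abel
        rw [h2, cls_sub (degree_pt_sub_pt _ _) (degree_pt_sub_pt _ _)] at h1
        have h3 : A χ.c - A τ = -(A τ - A χ.c) := by abel
        rw [h3, map_neg, ← h1]
        abel) P0 v
    simp only [cls_pt_sub_pt_self] at key
    rw [QuotientAddGroup.mk_zero, QuotientAddGroup.eq_zero_iff] at key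
    exact key
  have htop := pic0_eq_top_of_forall_mem E₁.range P0 hrange
  intro y
  have : y ∈ E₁.range := by rw [htop]; trivial
  exact this

theorem exists_nsmul_eq_complex (F : Type*) [Field F] [Algebra ℂ F] [IsFF1 ℂ F] [NonConst ℂ F]
    (n : ℕ) (hn : 0 < n) (x : Pic0 ℂ F) : ∃ y : Pic0 ℂ F, n • y = x := by
  have hfree : Module.Free ℂ (WDiff ℂ F) := Module.Free.of_divisionRing ℂ _
  have hfin : Module.Finite ℂ (WDiff ℂ F) := finite_wdiff
  let ω : Module.Basis (Fin (genusFF ℂ F)) ℂ (WDiff ℂ F) :=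
    Module.finBasisOfFinrankEq ℂ (WDiff ℂ F) finrank_wdiff
  obtain ⟨E₁, -, hE⟩ := exists_abel ω
  obtain ⟨u, rfl⟩ := abelJacobi_surjective E₁ (fun χ => ⟨χ.ab ω, hE χ⟩) x
  refine ⟨E₁ ((n : ℂ)⁻¹ • u), ?_⟩
  rw [← map_nsmul]
  congr 1
  have hn0 : (n : ℂ) ≠ 0 := Nat.cast_ne_zero.2 hn.ne'
  rw [← Nat.cast_smul_eq_nsmul ℂ, smul_smul, mul_inv_cancel₀ hn0, one_smul]

end Fermat.Agent.S17.W

end
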